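import Fermat.Agent.Peu.Main
import Fermat.Agent.ECRep.MultLine
import Fermat.Agent.ECRep.Odd

set_option autoImplicit false
set_option linter.style.haveILetI false
set_option linter.unusedSectionVars false

/-!
# Galois action on the lines of `E[p]` at a multiplicative place over `p`
-/

namespace Fermat.Agent.Peu

open WeierstrassCurve WeierstrassCurve.Affine Fermat.Agent.DivPoly Fermat.Agent.Wp
open Fermat.Agent.Pts Fermat.Agent.ModFn Fermat.Agent.EC
open scoped Pointwise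

local notation "Qb" => AlgebraicClosure ℚ
local notation "Γℚ" => (AlgebraicClosure ℚ ≃ₐ[ℚ] AlgebraicClosure ℚ)

section General

variable {p : ℕ} [hpF : Fact p.Prime] {E : Affine ℚ} {A : ValuationSubring Qb} {n : ℕ} {u : Qb}

omit hpF in
theorem jV_gal (σ : Γℚ) (P : (E⁄Qb).Point) : jV (E⁄Qb) (σ • P) p = σ (jV (E⁄Qb) P p) :=
  jV_map (σ : Qb →ₐ[ℚ] Qb) E P p

omit hpF in
theorem wP_gal (σ : Γℚ) (P : (E⁄Qb).Point) : wP E p n (σ • P) = σ (wP E p n P) := by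
  rw [wP, wP, jV_gal, map_inv₀, map_mul, map_pow, map_natCast]

theorem jE_gal (σ : Γℚ) : σ (jE Qb E) = jE Qb E := by
  rw [jE, map_div₀, map_pow, bc_c₄, bc_Δ, σ.commutes, σ.commutes]

theorem smul_nsmul_pt (σ : Γℚ) (m : ℕ) (P : (E⁄Qb).Point) : σ • (m • P) = m • (σ • P) :=
  (Point.map (σ : Qb →ₐ[ℚ] Qb) : (E⁄Qb).Point →+ (E⁄Qb).Point).map_nsmul m P

theorem smul_zsmul_pt (σ : Γℚ) (m : ℤ) (P : (E⁄Qb).Point) : σ • (m • P) = m • (σ • P) :=
  (Point.map (σ : Qb →ₐ[ℚ] Qb) : (E⁄Qb).Point →+ (E⁄Qb).Point).map_zsmul m P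

theorem smul_add_pt (σ : Γℚ) (P Q : (E⁄Qb).Point) : σ • (P + Q) = σ • P + σ • Q :=
  (Point.map (σ : Qb →ₐ[ℚ] Qb) : (E⁄Qb).Point →+ (E⁄Qb).Point).map_add P Q

theorem smul_zero_pt (σ : Γℚ) : σ • (0 : (E⁄Qb).Point) = 0 := rfl

theorem smul_ne_zero_pt (σ : Γℚ) {P : (E⁄Qb).Point} (hP : P ≠ 0) : σ • P ≠ 0 := by
  intro h
  apply hP
  have := congrArg (fun Q => σ⁻¹ • Q) h
  simp only [inv_smul_smul, smul_zero_pt] at this
  exact this

omit hpF in
theorem v_gal {σ : Γℚ} (hσ : σ ∈ A.decompositionSubgroup ℚ) {x : Qb} {a b : ℕ}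
    (h : A.valuation x ^ a = A.valuation (jE Qb E) ^ b) :
    A.valuation (σ x) ^ a = A.valuation (jE Qb E) ^ b := by
  have h0 : A.valuation (x ^ a) = A.valuation (jE Qb E ^ b) := by
    rw [_root_.map_pow, _root_.map_pow, h]
  have h1 := decomp_valuation_eq hσ h0
  rw [_root_.map_pow σ, _root_.map_pow σ, jE_gal, _root_.map_pow A.valuation,
    _root_.map_pow A.valuation] at h1
  exact h1

theorem NonCan.gal {σ : Γℚ} (hσ : σ ∈ A.decompositionSubgroup ℚ) {P : (E⁄Qb).Point}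
    (hP : NonCan E A p P) : NonCan E A p (σ • P) := by
  refine ⟨smul_ne_zero_pt σ hP.1, ?_, ?_⟩
  · rw [← smul_nsmul_pt, hP.2.1, smul_zero_pt]
  · rw [jV_gal]
    have := v_gal (E := E) hσ (x := jV (E⁄Qb) P p) (a := p) (b := 1) (by rw [pow_one]; exact hP.2.2)
    rwa [pow_one] at this

namespace Setup

variable (h : Setup E A p n u)

include h

/-- The canonical line is stable under the decomposition group. -/
theorem canonical_gal {σ : Γℚ} (hσ : σ ∈ A.decompositionSubgroup ℚ) {P₀ : (E⁄Qb).Point}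
    (hP₀ : P₀ ≠ 0) (hpP₀ : p • P₀ = 0)
    (hv : A.valuation (jV (E⁄Qb) P₀ p) = A.valuation (jE Qb E) ^ p) :
    ∃ k : ℤ, σ • P₀ = k • P₀ := by
  obtain ⟨P₁, hP₁, hpP₁, h1⟩ := h.exists_canonical
  have h2 := (h1 P₀ hP₀ hpP₀).2.mpr hv
  have hσP : p • (σ • P₀) = 0 := by rw [← smul_nsmul_pt, hpP₀, smul_zero_pt]
  have h3 := (h1 (σ • P₀) (smul_ne_zero_pt σ hP₀) hσP).2.mpr (by
    rw [jV_gal]
    have := v_gal (E := E) hσ (x := jV (E⁄Qb) P₀ p) (a := 1) (b := p) (by rw [pow_one]; exact hv)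
    rwa [pow_one] at this)
  obtain ⟨a, ha⟩ := h2
  obtain ⟨b, hb⟩ := h3
  have h4 := (h.jV_eq_iff hP₁ hpP₁ hP₀ hpP₀).mpr ⟨a, ha⟩
  have h5 := (h.jV_eq_iff hP₁ hpP₁ (smul_ne_zero_pt σ hP₀) hσP).mpr ⟨b, hb⟩
  exact (h.jV_eq_iff hP₀ hpP₀ (smul_ne_zero_pt σ hP₀) hσP).mp (by rw [← h4, h5])

/-- An element of the decomposition group fixing `w_P` fixes the line of `P`. -/
theorem line_of_w {σ : Γℚ} (hσ : σ ∈ A.decompositionSubgroup ℚ) {P : (E⁄Qb).Point}
    (hP : NonCan E A p P) {δ : Qb} (hδ : δ ∈ A) (hd : σ (wP E p n P) - wP E p n P = p * δ) :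
    ∃ k : ℤ, σ • P = k • P :=
  h.wP_sep hP (hP.gal hσ) hδ (by rw [wP_gal]; exact hd)

end Setup

end General

section Mult

open Fermat.Agent.ECRep Fermat.Agent.S13lib

variable {p : ℕ} [hpF : Fact p.Prime] {W : WeierstrassCurve ℤ} {A : ValuationSubring Qb} {n : ℕ}
  {u : Qb}

/-- **Inertia elements fixing `μ_p` and a non-canonical line of `W[p]` act trivially on
`W[p]`.** -/
theorem Setup.trivial_of_fixed (h : Setup (WQ W) A p n u) (hpΔ : (p : ℤ) ∣ W.Δ)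
    (hc : ¬ (p : ℤ) ∣ W.c₄) {σ : Γℚ} (hσ : σ ∈ A.inertiaSubgroupIn ℚ)
    (hμ : ∀ μ : Qb, μ ^ p = 1 → σ μ = μ) {P : ((WQ W)⁄Qb).Point} (hP : NonCan (WQ W) A p P)
    (hfix : ∃ k : ℤ, σ • P = k • P) (Q : ((WQ W)⁄Qb).Point) (hQ : p • Q = 0) : σ • Q = Q := by
  classical
  have hp := hpF.out
  have hΔ : W.Δ ≠ 0 := by
    have := h.hΔ
    intro h0
    apply this
    rw [WeierstrassCurve.map_Δ, h0, _root_.map_zero]
  obtain ⟨x₀, y₀, α, β, D, hM⟩ := exists_multData W hΔ hp h.hA hpΔ hc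
  let _ := algRes h.hA
  have hR : IsRed (IsLocalRing.residue A) ((toRat W)⁄Qb)
      ((W.reductionMod p)⁄(IsLocalRing.ResidueField A)) := isRed_int W
  obtain ⟨P₀, hP₀, hpP₀, h1⟩ := h.exists_canonical
  obtain ⟨a, ha⟩ := h.canonical_gal (decomp_of_inertia hσ) hP₀ hpP₀
    ((h1 P₀ hP₀ hpP₀).2.mp ⟨1, (one_zsmul _).symm⟩)
  obtain ⟨b, hb⟩ := hfix
  have hPnot : ¬ ∃ k : ℤ, P = k • P₀ := by
    intro h2
    exact (h1 P hP.1 hP.2.1).1.mp h2 hP
  -- the basis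
  let V := Submodule.torsionBy ℤ ((toRat W)⁄Qb).Point (p : ℤ)
  have hmem : ∀ {R : ((toRat W)⁄Qb).Point}, p • R = 0 → R ∈ V := by
    intro R hR
    rw [Submodule.mem_torsionBy_iff, natCast_zsmul]
    exact hR
  let v₀ : V := ⟨P₀, hmem hpP₀⟩
  let v₁ : V := ⟨P, hmem hP.2.1⟩
  have hval : ∀ (c : ZMod p) (v : V), ((c • v : V) : ((toRat W)⁄Qb).Point) =
      c.val • (v : ((toRat W)⁄Qb).Point) := by
    intro c v
    have e1 : c • v = c.val • v := by
      conv_lhs => rw [← ZMod.natCast_zmod_val c]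
      rw [Nat.cast_smul_eq_nsmul]
    rw [e1]
    rfl
  have hv₀ : v₀ ≠ 0 := fun h0 => hP₀ (congrArg Subtype.val h0)
  have hli : LinearIndependent (ZMod p) ![v₀, v₁] := by
    rw [LinearIndependent.pair_iff]
    intro s t hst
    by_cases ht : t = 0
    · rw [ht, zero_smul, add_zero] at hst
      exact ⟨(smul_eq_zero.mp hst).resolve_right hv₀, ht⟩
    · exfalso
      have e1 : v₁ = (-(t⁻¹ * s)) • v₀ := by
        have e2 : t • v₁ = -(s • v₀) := eq_neg_of_add_eq_zero_right hst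
        have e3 : t⁻¹ • (t • v₁) = v₁ := by rw [smul_smul, inv_mul_cancel₀ ht, one_smul]
        rw [← e3, e2, smul_neg, smul_smul, neg_smul]
      apply hPnot
      have e4 := congrArg Subtype.val e1
      rw [hval] at e4
      exact ⟨((-(t⁻¹ * s)).val : ℤ), by rw [natCast_zsmul]; exact e4⟩
  have hfr : Module.finrank (ZMod p) V = 2 := (resRep (toRat W) p (toRat_Δ_ne_zero hΔ)).finrank_eq
  let bas := basisOfLinearIndependentOfCardEqFinrank hli (by rw [hfr]; rfl)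
  have hb0 : bas 0 = v₀ := by simp [bas]
  have hb1 : bas 1 = v₁ := by simp [bas]
  have hdec : ∀ {R : ((toRat W)⁄Qb).Point}, p • R = 0 → ∃ x y : ℕ, R = x • P₀ + y • P := by
    intro R hR
    have e1 := bas.sum_repr ⟨R, hmem hR⟩
    rw [Fin.sum_univ_two, hb0, hb1] at e1
    have e2 := congrArg Subtype.val e1
    refine ⟨(bas.repr ⟨R, hmem hR⟩ 0).val, (bas.repr ⟨R, hmem hR⟩ 1).val, ?_⟩
    rw [← hval _ v₀, ← hval _ v₁]
    exact e2.symm
  -- the determinant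
  obtain ⟨f, hf⟩ : ∃ f : V →ₗ[ZMod p] V, f = (resRep (toRat W) p (toRat_Δ_ne_zero hΔ)).ρ σ :=
    ⟨_, rfl⟩
  have hfap : ∀ v : V, ((f v : V) : ((toRat W)⁄Qb).Point) = σ • (v : ((toRat W)⁄Qb).Point) := by
    intro v
    rw [hf]
    rfl
  have hf0 : f v₀ = (a : ZMod p) • v₀ := by
    apply Subtype.ext
    rw [hfap, Int.cast_smul_eq_zsmul]
    exact ha
  have hf1 : f v₁ = (b : ZMod p) • v₁ := by
    apply Subtype.ext
    rw [hfap, Int.cast_smul_eq_zsmul]
    exact hb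
  have hdet : LinearMap.det f = (a : ZMod p) * (b : ZMod p) :=
    det_of_tri bas f (χ := (a : ZMod p)) (τ := 0) (ε := (b : ZMod p)) (by rw [hb0, hf0])
      (by rw [hb0, hb1, hf1, zero_smul, zero_add])
  have hdet1 : LinearMap.det f = 1 := by
    have e1 := det_resRep_eq W p hΔ σ 1 (fun μ hμ' => by rw [pow_one, hμ μ hμ'])
    rw [Nat.cast_one] at e1
    rw [hf]
    exact e1
  have hab : (a : ZMod p) * (b : ZMod p) = 1 := by rw [← hdet, hdet1]
  -- nonsingular reduction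
  have hNS : ∀ {R : ((toRat W)⁄Qb).Point} (r : ℤ), p • R = 0 → σ • R = r • R →
      (r : ZMod p) ≠ 1 → NS A.valuation R := by
    intro R r hpR hr hr1
    have e1 : NS A.valuation (σ • R - R) := hM.inertia_ns hσ R
    have e2 : (r : ZMod p) - 1 ≠ 0 := sub_ne_zero.mpr hr1
    let v : V := ⟨R, hmem hpR⟩
    have e3 : ((r : ZMod p) - 1)⁻¹ • (((r : ZMod p) - 1) • v) = v := by
      rw [smul_smul, inv_mul_cancel₀ e2, one_smul]
    have e4 : (((r : ZMod p) - 1) • v : V) = ⟨σ • R - R, by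
        rw [hr]
        exact Submodule.sub_mem _ (Submodule.smul_mem _ _ (hmem hpR)) (hmem hpR)⟩ := by
      apply Subtype.ext
      rw [sub_smul, one_smul, Int.cast_smul_eq_zsmul]
      change r • R - R = σ • R - R
      rw [hr]
    rw [e4] at e3
    have e5 := congrArg Subtype.val e3
    rw [hval] at e5
    change _ = R at e5
    rw [← e5]
    exact (red_nsmul hR e1 _).1
  have hone : (a : ZMod p) = 1 ∨ (b : ZMod p) = 1 := by
    by_contra hcon
    push Not at hcon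
    have n0 := hNS a hpP₀ ha hcon.1
    have n1 := hNS b hP.2.1 hb hcon.2
    obtain ⟨R, hR1, hR2⟩ := mult_exists_not_ns hΔ hp h.hA hM p
    apply hR2
    obtain ⟨x, y, rfl⟩ := hdec hR1
    exact (red_add hR (red_nsmul hR n0 x).1 (red_nsmul hR n1 y).1).1
  have hboth : (a : ZMod p) = 1 ∧ (b : ZMod p) = 1 := by
    rcases hone with e | e
    · rw [e, one_mul] at hab
      exact ⟨e, hab⟩
    · rw [e, mul_one] at hab
      exact ⟨hab, e⟩
  have s0 : σ • P₀ = P₀ := by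
    have e1 := congrArg Subtype.val hf0
    rw [hfap, hboth.1, one_smul] at e1
    exact e1
  have s1 : σ • P = P := by
    have e1 := congrArg Subtype.val hf1
    rw [hfap, hboth.2, one_smul] at e1
    exact e1
  obtain ⟨x, y, rfl⟩ := hdec hQ
  rw [smul_add_pt, smul_nsmul_pt, smul_nsmul_pt, s0, s1]

/-- The setup attached to an integral model, multiplicative at `p` with `p ∣ v_p(Δ)`. -/
theorem exists_setup (hp3 : 3 ≤ p) (hΔ : W.Δ ≠ 0) (hpΔ : (p : ℤ) ∣ W.Δ)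
    (hc : ¬ (p : ℤ) ∣ W.c₄) (hv : p ∣ padicValInt p W.Δ) (hA : A.LiesOverPrime p) :
    ∃ (n : ℕ) (u : ℚ), p * n = padicValInt p W.Δ ∧ padicValRat p u = 0 ∧
      Setup (WQ W) A p n (algebraMap ℚ Qb u) := by
  have hp := hpF.out
  obtain ⟨n, hn⟩ := hv
  obtain ⟨δ, hδ⟩ := padicValInt_dvd (p := p) W.Δ
  have hc0 : W.c₄ ≠ 0 := by
    intro h0
    apply hc
    rw [h0]
    exact dvd_zero _
  have hδ0 : δ ≠ 0 := by
    rintro rfl
    rw [mul_zero] at hδ
    exact hΔ hδ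
  have hδp : ¬ (p : ℤ) ∣ δ := by
    rintro ⟨ε, hε⟩
    have h1 : (p : ℤ) ^ (padicValInt p W.Δ + 1) ∣ W.Δ :=
      ⟨ε, by rw [pow_succ, mul_assoc, ← hε]; exact hδ⟩
    rw [padicValInt_dvd_iff] at h1
    rcases h1 with h1 | h1
    · exact hΔ h1
    · omega
  have hvp : p * n = padicValInt p W.Δ := hn.symm
  rw [← hvp] at hδ
  have hn1 : 1 ≤ n := by
    rcases Nat.eq_zero_or_pos n with h0 | h0
    · exfalso
      rw [h0, mul_zero, pow_zero, one_mul] at hδ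
      rw [hδ] at hpΔ
      exact hδp hpΔ
    · exact h0
  refine ⟨n, δ / W.c₄ ^ 3, hvp, ?_, ?_, hp3, hA, hn1, ?_, ?_⟩
  · rw [padicValRat.div (by exact_mod_cast hδ0) (pow_ne_zero 3 (by exact_mod_cast hc0)),
      padicValRat.pow, padicValRat.of_int, padicValRat.of_int,
      padicValInt.eq_zero_of_not_dvd hδp, padicValInt.eq_zero_of_not_dvd hc]
    simp
  · rw [WeierstrassCurve.map_Δ]
    simpa using hΔ
  · rw [map_div₀, _root_.map_pow, map_intCast, map_intCast, map_div₀, _root_.map_pow,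
      v_int_eq_one hp hA hδp, v_int_eq_one hp hA hc]
    simp
  · have e1 : (W.c₄ : Qb) ≠ 0 := by exact_mod_cast hc0
    have e2 : (δ : Qb) ≠ 0 := by exact_mod_cast hδ0
    have e3 : (p : Qb) ≠ 0 := by exact_mod_cast hp.ne_zero
    have e4 : (W.Δ : Qb) = (p : Qb) ^ (p * n) * (δ : Qb) := by
      have := congrArg (Int.cast : ℤ → Qb) hδ
      push_cast at this
      exact this
    rw [jE, wq_c₄, wq_Δ, map_div₀, _root_.map_pow, map_intCast, map_intCast, e4]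
    field_simp

end Mult

end Fermat.Agent.Peu
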