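import Fermat.Agent.Pts.Qbar
import Fermat.Agent.ESh.NormRed
import Mathlib.FieldTheory.Galois.Infinite

set_option autoImplicit false
set_option linter.style.haveILetI false
set_option linter.unusedSectionVars false

/-!
# The modular polynomial over `ℤ` and the Kronecker congruence
-/

namespace Fermat.Agent.Peu

open Function ModularCurve Polynomial UpperHalfPlane
open Fermat.Agent.ModFn Fermat.Agent.Pts

section General

variable {O O' : Type*} [CommRing O] [CommRing O'] (p : ℕ) [hpF : Fact p.Prime]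

/-- Evaluation at `j(q^p)`. -/
noncomputable def evp (O : Type*) [CommRing O] : O[X] →+* LaurentSeries O :=
  eval₂RingHom HahnSeries.C (qExpand O p (jqModC O))

theorem evp_X : evp p O X = qExpand O p (jqModC O) := by
  rw [evp, coe_eval₂RingHom, Polynomial.eval₂_X]

theorem evJ_injective :
    Injective (eval₂RingHom HahnSeries.C (jqModC O) : O[X] →+* LaurentSeries O) := by
  rw [injective_iff_map_eq_zero]
  intro P hP
  rw [coe_eval₂RingHom] at hP
  have h1 := eval₂_jq_coeff (O := O) (P := P) le_rfl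
  rw [hP, HahnSeries.coeff_zero] at h1
  exact Polynomial.leadingCoeff_eq_zero.1 h1.symm

theorem evp_injective : Injective (evp p O) := by
  have h1 : evp p O = (qExpand O p).comp (eval₂RingHom HahnSeries.C (jqModC O)) := by
    rw [evp]
    apply Polynomial.ringHom_ext
    · intro a
      simp
    · simp
  rw [h1]
  exact (qExpand_injective (R := O) p).comp evJ_injective

theorem coeffMap_comp_evp (f : O →+* O') :
    (coeffMap f).comp (evp p O) = (evp p O').comp (mapRingHom f) := by
  apply Polynomial.ringHom_ext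
  · intro a
    simp only [evp, RingHom.comp_apply, coe_eval₂RingHom, Polynomial.eval₂_C, coe_mapRingHom,
      Polynomial.map_C]
    rw [HahnSeries.C_apply, coeffMap_single, HahnSeries.C_apply]
  · simp only [evp, RingHom.comp_apply, coe_eval₂RingHom, Polynomial.eval₂_X, coe_mapRingHom,
      Polynomial.map_X]
    rw [ModFn.coeffMap_qExpand, ModFn.coeffMap_jqModC]

theorem coeffMap_sO (f : O →+* O') (ζ : Oˣ) (x : Option (ZMod p)) :
    coeffMap f (sO p ζ x) = sO p (Units.map f.toMonoidHom ζ) x := by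
  cases x with
  | none => rw [sO, sO, ModFn.coeffMap_qExpand, ModFn.coeffMap_jqModC]
  | some y => rw [sO, sO, coeffMap_twist, ModFn.coeffMap_jqModC, map_zpow]

theorem FO_map (f : O →+* O') (ζ : Oˣ) :
    (FO p ζ).map (coeffMap f) = FO p (Units.map f.toMonoidHom ζ) := by
  rw [FO, FO, Polynomial.map_prod]
  refine Finset.prod_congr rfl fun x _ => ?_
  rw [Polynomial.map_sub, Polynomial.map_X, Polynomial.map_C, coeffMap_sO]

theorem zpow_val_eq {ζ : Oˣ} (hζ : ζ ^ p = 1) {a b : ℕ} (h : (a : ZMod p) = b) :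
    ζ ^ (a : ℤ) = ζ ^ (b : ℤ) := by
  rw [zpow_natCast, zpow_natCast]
  have h1 : a ≡ b [MOD p] := (ZMod.natCast_eq_natCast_iff a b p).mp h
  have h2 : orderOf ζ ∣ p := orderOf_dvd_of_pow_eq_one hζ
  exact pow_eq_pow_iff_modEq.mpr (h1.of_dvd h2)

theorem FO_pow {ζ : Oˣ} (hζ : ζ ^ p = 1) {a : ℕ} (ha : (a : ZMod p) ≠ 0) :
    FO p (ζ ^ a) = FO p ζ := by
  rw [FO_eq, FO_eq, HO, HO]
  congr 1
  have hb : Bijective (fun y : ZMod p => (a : ZMod p) * y) := by
    rw [Fintype.bijective_iff_injective_and_card]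
    exact ⟨mul_right_injective₀ ha, rfl⟩
  rw [← hb.prod_comp (fun y => (X - C (sO p ζ (some y))))]
  refine Finset.prod_congr rfl fun y _ => ?_
  have h1 : (ζ ^ a) ^ (y.val : ℤ) = ζ ^ ((((a : ZMod p) * y).val : ℕ) : ℤ) := by
    have h2 : (ζ ^ a) ^ (y.val : ℤ) = ζ ^ ((a * y.val : ℕ) : ℤ) := by
      rw [zpow_natCast, zpow_natCast, pow_mul]
    rw [h2]
    apply zpow_val_eq p hζ
    rw [ZMod.natCast_val, ZMod.cast_id, Nat.cast_mul, ZMod.natCast_val, ZMod.cast_id]
  simp only [sO]
  rw [h1]

theorem FO_one : FO p (1 : Oˣ) =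
    (X - C (qExpand O (p * p) (jqModC O))) * (X - C (jqModC O)) ^ p := by
  rw [FO_eq, HO]
  congr 1
  have h1 : ∀ y : ZMod p, (X - C (sO (O := O) p 1 (some y))) = X - C (jqModC O) := by
    intro y
    simp only [sO]
    rw [one_zpow, twist_one]
  rw [Finset.prod_congr rfl fun y _ => h1 y, Finset.prod_const, Finset.card_univ, ZMod.card]

/-- Kronecker's polynomial `(Y - X ^ p) (Y ^ p - X)`. -/
noncomputable def Kr (O : Type*) [CommRing O] : O[X][X] := (X - C (X ^ p)) * (X ^ p - C X)

theorem Kr_map (f : O →+* O') : (Kr p O).map (mapRingHom f) = Kr p O' := by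
  simp [Kr]

theorem FO_one_char (k : Type*) [Field k] [CharP k p] :
    FO p (1 : kˣ) = (Kr p k).map (evp p k) := by
  have h0 : coeffMap (frobenius k p) (jqModC k) = jqModC k := ModFn.coeffMap_jqModC _
  have h1 : (jqModC k) ^ p = qExpand k p (jqModC k) := by
    rw [ESh.pow_eq_qExpand, h0]
  have h2 : (qExpand k p (jqModC k)) ^ p = qExpand k (p * p) (jqModC k) := by
    rw [← map_pow, h1, qExpand_qExpand]
  haveI : CharP (LaurentSeries k)[X] p := by
    haveI : CharP (LaurentSeries k) p :=
      charP_of_injective_ringHom (HahnSeries.C : k →+* LaurentSeries k).injective p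
    infer_instance
  rw [FO_one, Kr, Polynomial.map_mul, Polynomial.map_sub, Polynomial.map_sub, Polynomial.map_pow,
    Polynomial.map_X, Polynomial.map_C, Polynomial.map_C, map_pow, evp_X, h2, sub_pow_char,
    ← map_pow, h1]

end General

end Fermat.Agent.Peu
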