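import Fermat.Agent.Peu.Rel

set_option autoImplicit false
set_option linter.style.haveILetI false
set_option linter.unusedSectionVars false

/-!
# The `j`-invariants of the quotients by the lines of `E[p]` at a multiplicative place over `p`
-/

namespace Fermat.Agent.Peu

open WeierstrassCurve WeierstrassCurve.Affine Fermat.Agent.DivPoly Fermat.Agent.Wp
open Polynomial Fermat.Agent.Pts Fermat.Agent.ModFn
open scoped Pointwise

section Count

/-- Fibres of a map whose fibres have at least `m` elements, and with few elements in total. -/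
theorem fiber_card {S T : Type*} [DecidableEq S] [DecidableEq T] (s : Finset S) (g : S → T)
    (N : Finset T) {m : ℕ} (hg : ∀ x ∈ s, g x ∈ N) (hcard : s.card ≤ N.card * m)
    (hle : ∀ t ∈ N, m ≤ (s.filter fun x => g x = t).card) :
    ∀ t ∈ N, (s.filter fun x => g x = t).card = m := by
  have h1 : s.card = ∑ t ∈ N, (s.filter fun x => g x = t).card :=
    Finset.card_eq_sum_card_fiberwise hg
  have h2 : ∑ t ∈ N, m ≤ ∑ t ∈ N, (s.filter fun x => g x = t).card :=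
    Finset.sum_le_sum hle
  have h3 : ∑ t ∈ N, m = ∑ t ∈ N, (s.filter fun x => g x = t).card := by
    apply le_antisymm h2
    rw [← h1, Finset.sum_const, smul_eq_mul]
    exact hcard
  have h4 := (Finset.sum_eq_sum_iff_of_le hle).mp h3
  exact fun t ht => (h4 t ht).symm

variable {G : Type*} [AddCommGroup G] {p : ℕ}

theorem line_card [DecidableEq G] (hp : p.Prime) {P : G} (hP : P ≠ 0) (hpP : p • P = 0) :
    ((Finset.range (p - 1)).image fun k => (k + 1) • P).card = p - 1 := by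
  rw [Finset.card_image_of_injOn, Finset.card_range]
  intro a ha b hb hab
  simp only [Finset.coe_range, Set.mem_Iio] at ha hb
  haveI : Fact p.Prime := ⟨hp⟩
  have hord : addOrderOf P = p := addOrderOf_eq_prime hpP hP
  have h1 := (nsmul_injOn_Iio_addOrderOf (x := P)) (x₁ := a + 1) (x₂ := b + 1)
    (by rw [hord]; simp only [Set.mem_Iio]; omega) (by rw [hord]; simp only [Set.mem_Iio]; omega) hab
  omega

theorem line_ne_zero (hp : p.Prime) {P : G} (hP : P ≠ 0) (hpP : p • P = 0) {k : ℕ}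
    (hk : k < p - 1) : (k + 1) • P ≠ 0 := by
  intro h0
  haveI : Fact p.Prime := ⟨hp⟩
  have hord : addOrderOf P = p := addOrderOf_eq_prime hpP hP
  have h1 := addOrderOf_dvd_of_nsmul_eq_zero h0
  rw [hord] at h1
  have := Nat.le_of_dvd (by omega) h1
  omega

end Count

section Roots

variable {K : Type*} [Field K] [DecidableEq K] [IsAlgClosed K] {p : ℕ} [hpF : Fact p.Prime]
  [Algebra ℚ K] [Algebra K ℂ] {Φ : ℤ[X][X]} (hΦ : IsPhiZ p Φ) (E : Affine ℚ)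

/-- The `j`-invariant. -/
noncomputable def jE (K : Type*) [Field K] [Algebra ℚ K] (E : Affine ℚ) : K :=
  (E⁄K).c₄ ^ 3 / (E⁄K).Δ

include hΦ in
theorem spec_eq {Φ' : K[X][X]} (hΦ' : IsPhi K p Φ') (hΔ : E.Δ ≠ 0) (hp3 : 3 ≤ p) :
    spec Φ (jE K E) = Φ'.map (evalRingHom (jE K E)) := by
  haveI : CharZero K := (algebraMap K ℂ).charZero
  have hΔC : (E⁄ℂ).Δ ≠ 0 := by
    rw [bc_Δ]
    exact (_root_.map_ne_zero _).mpr hΔ
  obtain ⟨τ, hτ, -⟩ := exists_tau hΔC hpF.out hp3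
  have hja : algebraMap K ℂ (jE K E) = jH τ := by
    rw [hτ, c₄_map (embC K), Δ_map (embC K), ← map_pow, ← map_div₀, embC_apply, jE]
  apply Polynomial.map_injective (algebraMap K ℂ) (algebraMap K ℂ).injective
  rw [hΦ'.map_eq τ _ hja, ← hΦ.map_eq τ, spec, Polynomial.map_map]
  congr 1
  apply Polynomial.ringHom_ext
  · intro c
    simp
  · simp [hja]

include hΦ in
theorem spec_root_iff (hΔ : E.Δ ≠ 0) (hp3 : 3 ≤ p) (b : K) :
    (spec Φ (jE K E)).eval b = 0 ↔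
      ∃ P : (E⁄K).Point, P ≠ 0 ∧ p • P = 0 ∧ b = jV (E⁄K) P p := by
  obtain ⟨Φ', hΦ'⟩ := exists_isPhi K p
  rw [spec_eq hΦ E hΦ' hΔ hp3, ← roots_iff hΦ' E hΔ hp3 b, ← ev_eq_eval hΦ']
  rfl

include hΦ in
theorem spec_shape (hΔ : E.Δ ≠ 0) (hp3 : 3 ≤ p) (A : ValuationSubring K)
    (hj : 1 < A.valuation (jE K E)) :
    Shape A.valuation p (A.valuation (jE K E)) (spec Φ (jE K E)) := by
  obtain ⟨Φ', hΦ'⟩ := exists_isPhi K p
  rw [spec_eq hΦ E hΦ' hΔ hp3]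
  exact hΦ'.shape A _ hj

include hΦ in
/-- **Lines of `E[p]` correspond to roots of the modular polynomial**, if the latter has only simple
roots. -/
theorem jV_eq_iff_of_simple (hΔ : E.Δ ≠ 0) (hp3 : 3 ≤ p)
    (hs : ∀ b : K, (spec Φ (jE K E)).eval b = 0 → (spec Φ (jE K E)).derivative.eval b ≠ 0)
    {P P' : (E⁄K).Point} (hP : P ≠ 0) (hpP : p • P = 0) (hP' : P' ≠ 0) (hpP' : p • P' = 0) :
    jV (E⁄K) P p = jV (E⁄K) P' p ↔ ∃ k : ℤ, P' = k • P := by
  classical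
  haveI : CharZero K := (algebraMap K ℂ).charZero
  have hp := hpF.out
  have hΔK : (E⁄K).Δ ≠ 0 := by
    rw [bc_Δ]
    exact (_root_.map_ne_zero _).mpr hΔ
  constructor
  swap
  · rintro ⟨k, rfl⟩
    exact (jV_zsmul hp hP hpP hP').symm
  intro hJ
  -- the nonzero torsion points
  have hcardT := natCard_torsion hΔK p hp.ne_zero
  haveI hfin : Finite {Q : (E⁄K).Point // p • Q = 0} :=
    Nat.finite_of_card_ne_zero (by rw [hcardT]; exact pow_ne_zero _ hp.ne_zero)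
  have hsetfin : ({Q : (E⁄K).Point | p • Q = 0}).Finite := hfin
  obtain ⟨T, hT⟩ : ∃ T : Finset (E⁄K).Point, T = hsetfin.toFinset := ⟨_, rfl⟩
  have hmemT : ∀ Q, Q ∈ T ↔ p • Q = 0 := by
    intro Q
    rw [hT, Set.Finite.mem_toFinset]
    rfl
  have hT2 : T.card = p ^ 2 := by
    rw [← hcardT, hT, ← Nat.card_eq_card_finite_toFinset hsetfin]
    rfl
  have hS : (T.erase 0).card = p ^ 2 - 1 := by
    rw [Finset.card_erase_of_mem (by rw [hmemT, smul_zero]), hT2]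
  -- the roots
  have hmonic := spec_monic hΦ (jE K E)
  have hnodup : (spec Φ (jE K E)).roots.Nodup := by
    rw [Multiset.nodup_iff_count_le_one]
    intro b
    rw [Polynomial.count_roots]
    by_contra hcon
    push Not at hcon
    have h1 := (Polynomial.one_lt_rootMultiplicity_iff_isRoot hmonic.ne_zero).mp hcon
    exact hs b h1.1 h1.2
  have hcardR : (spec Φ (jE K E)).roots.toFinset.card = p + 1 := by
    rw [Multiset.toFinset_card_of_nodup hnodup,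
      ← (IsAlgClosed.splits (spec Φ (jE K E))).natDegree_eq_card_roots, spec_natDegree hΦ]
  have hmemR : ∀ b, b ∈ (spec Φ (jE K E)).roots.toFinset ↔ (spec Φ (jE K E)).eval b = 0 := by
    intro b
    rw [Multiset.mem_toFinset, Polynomial.mem_roots hmonic.ne_zero]
    rfl
  have hline : ∀ Q : (E⁄K).Point, Q ≠ 0 → p • Q = 0 →
      ((Finset.range (p - 1)).image fun k => (k + 1) • Q) ⊆
        (T.erase 0).filter fun x => jV (E⁄K) x p = jV (E⁄K) Q p := by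
    intro Q hQ hpQ R hR
    rw [Finset.mem_image] at hR
    obtain ⟨k, hk, rfl⟩ := hR
    rw [Finset.mem_range] at hk
    have h0 := line_ne_zero hp hQ hpQ hk
    rw [Finset.mem_filter, Finset.mem_erase, hmemT]
    refine ⟨⟨h0, ?_⟩, ?_⟩
    · rw [smul_comm, hpQ, smul_zero]
    · have h1 : (k + 1) • Q = ((k + 1 : ℕ) : ℤ) • Q := by rw [natCast_zsmul]
      rw [h1] at h0 ⊢
      exact jV_zsmul hp hQ hpQ h0
  have hfib := fiber_card (T.erase 0) (fun Q => jV (E⁄K) Q p) (spec Φ (jE K E)).roots.toFinset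
    (m := p - 1) (fun Q hQ => by
      rw [Finset.mem_erase, hmemT] at hQ
      rw [hmemR, spec_root_iff hΦ E hΔ hp3]
      exact ⟨Q, hQ.1, hQ.2, rfl⟩) (by
      rw [hS, hcardR]
      obtain ⟨a, rfl⟩ : ∃ a, p = a + 1 := ⟨p - 1, by omega⟩
      have h1 : a + 1 - 1 = a := by omega
      have h2 : (a + 1) ^ 2 = (a + 1 + 1) * a + 1 := by ring
      rw [h1, h2]
      omega) (fun t ht => by
      rw [hmemR, spec_root_iff hΦ E hΔ hp3] at ht
      obtain ⟨Q, hQ, hpQ, rfl⟩ := ht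
      rw [← line_card hp hQ hpQ]
      exact Finset.card_le_card (hline Q hQ hpQ))
  have h1 : jV (E⁄K) P p ∈ (spec Φ (jE K E)).roots.toFinset := by
    rw [hmemR, spec_root_iff hΦ E hΔ hp3]
    exact ⟨P, hP, hpP, rfl⟩
  have h2 := Finset.eq_of_subset_of_card_le (hline P hP hpP)
    (by rw [hfib _ h1, line_card hp hP hpP])
  have h3 : P' ∈ (T.erase 0).filter fun x => jV (E⁄K) x p = jV (E⁄K) P p := by
    rw [Finset.mem_filter, Finset.mem_erase, hmemT]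
    exact ⟨⟨hP', hpP'⟩, hJ.symm⟩
  rw [← h2, Finset.mem_image] at h3
  obtain ⟨k, -, hk⟩ := h3
  exact ⟨((k + 1 : ℕ) : ℤ), by rw [natCast_zsmul]; exact hk.symm⟩

end Roots

local notation "Qb" => AlgebraicClosure ℚ

section Qbar

variable {p : ℕ} [hpF : Fact p.Prime] (E : Affine ℚ) {A : ValuationSubring Qb}

/-- the normalised invariant `w = 1 / (p ^ n J)` of the line of `P` -/
noncomputable def wP (p n : ℕ) (P : (E⁄Qb).Point) : Qb := ((p : Qb) ^ n * jV (E⁄Qb) P p)⁻¹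

/-- `P` generates a non-canonical line of `E[p]`. -/
def NonCan (A : ValuationSubring Qb) (p : ℕ) (P : (E⁄Qb).Point) : Prop :=
  P ≠ 0 ∧ p • P = 0 ∧ A.valuation (jV (E⁄Qb) P p) ^ p = A.valuation (jE Qb E)

/-- The hypothesis `j⁻¹ = p ^ (p n) u`. -/
structure Setup (A : ValuationSubring Qb) (p n : ℕ) (u : Qb) : Prop where
  hΔ : E.Δ ≠ 0
  hp3 : 3 ≤ p
  hA : A.LiesOverPrime p
  hn : 1 ≤ n
  hu : A.valuation u = 1
  hj : jE Qb E * ((p : Qb) ^ (p * n) * u) = 1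

namespace Setup

variable {E} {n : ℕ} {u : Qb} (h : Setup E A p n u)

include h

theorem vp_lt : A.valuation (p : Qb) < 1 := v_lt_one_of_lies h.hA

omit hpF in
theorem vj_mul : A.valuation (jE Qb E) * A.valuation (p : Qb) ^ (p * n) = 1 := by
  have h1 := congrArg A.valuation h.hj
  rwa [map_mul, map_mul, h.hu, mul_one, map_pow, map_one] at h1

theorem one_lt_vj : 1 < A.valuation (jE Qb E) := by
  have h1 := h.vj_mul
  have h2 : A.valuation (p : Qb) ^ (p * n) < 1 :=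
    pow_lt_one₀ zero_le h.vp_lt (mul_ne_zero hpF.out.ne_zero (by have := h.hn; omega))
  by_contra hcon
  push Not at hcon
  have h3 : A.valuation (jE Qb E) * A.valuation (p : Qb) ^ (p * n) < 1 :=
    (mul_le_of_le_one_left' hcon).trans_lt h2
  exact absurd h1 h3.ne

theorem v_w {b : Qb} (hb : A.valuation b ^ p = A.valuation (jE Qb E)) :
    A.valuation ((p : Qb) ^ n * b)⁻¹ = 1 := by
  have h1 : A.valuation ((p : Qb) ^ n * b) ^ p = 1 := by
    rw [map_mul, mul_pow, hb, map_pow, ← pow_mul, mul_comm, mul_comm n p]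
    exact h.vj_mul
  have h2 : A.valuation ((p : Qb) ^ n * b) = 1 :=
    (pow_eq_one_iff.mp h1).resolve_right hpF.out.ne_zero
  rw [map_inv₀, h2, inv_one]

theorem mul_w {b : Qb} (hb : A.valuation b ^ p = A.valuation (jE Qb E)) :
    b * ((p : Qb) ^ n * ((p : Qb) ^ n * b)⁻¹) = 1 := by
  have h1 := h.v_w hb
  have h2 : ((p : Qb) ^ n * b) ≠ 0 := by
    intro h0
    rw [h0, inv_zero, map_zero] at h1
    exact zero_ne_one h1
  have h3 : b * ((p : Qb) ^ n * ((p : Qb) ^ n * b)⁻¹) =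
      ((p : Qb) ^ n * b) * ((p : Qb) ^ n * b)⁻¹ := by ring
  rw [h3, mul_inv_cancel₀ h2]

/-- The roots of the modular polynomial are simple. -/
theorem simple {Φ : ℤ[X][X]} (hΦ : IsPhiZ p Φ) {b : Qb} (hb : (spec Φ (jE Qb E)).eval b = 0) :
    (spec Φ (jE Qb E)).derivative.eval b ≠ 0 := by
  letI : Algebra Qb ℂ := (IsAlgClosed.lift : Qb →ₐ[ℚ] ℂ).toAlgebra
  have hs := spec_shape hΦ E h.hΔ h.hp3 A h.one_lt_vj
  rcases hs.root_cases hpF.out.two_le h.one_lt_vj hb with h1 | h1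
  · exact hs.derivative_ne_zero hpF.out.two_le h.one_lt_vj hb h1
  · have h2 := h.v_w h1
    obtain ⟨uA, huA⟩ : ∃ uA : A, (uA : Qb) = u := ⟨⟨u, (A.valuation_le_one_iff u).mp h.hu.le⟩, rfl⟩
    obtain ⟨wA, hwA⟩ : ∃ wA : A, (wA : Qb) = ((p : Qb) ^ n * b)⁻¹ :=
      ⟨⟨_, (A.valuation_le_one_iff _).mp h2.le⟩, rfl⟩
    have hu : IsUnit uA := (A.valuation_eq_one_iff uA).mpr (by rw [huA]; exact h.hu)
    have hw : IsUnit wA := (A.valuation_eq_one_iff wA).mpr (by rw [hwA]; exact h2)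
    have h3 := roots_near hΦ h.hp3 h.vp_lt h.hn hu (x := jE Qb E) (by rw [huA]; exact h.hj)
    exact (h3.1 wA b hw (by rw [hwA]; exact h.mul_w h1) hb).2

/-- **Lines correspond to `j`-invariants of quotients.** -/
theorem jV_eq_iff {P P' : (E⁄Qb).Point} (hP : P ≠ 0) (hpP : p • P = 0) (hP' : P' ≠ 0)
    (hpP' : p • P' = 0) :
    jV (E⁄Qb) P p = jV (E⁄Qb) P' p ↔ ∃ k : ℤ, P' = k • P := by
  letI : Algebra Qb ℂ := (IsAlgClosed.lift : Qb →ₐ[ℚ] ℂ).toAlgebra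
  obtain ⟨Φ, hΦ⟩ := exists_PhiZ p
  exact jV_eq_iff_of_simple hΦ E h.hΔ h.hp3 (fun b hb => h.simple hΦ hb) hP hpP hP' hpP'

/-- **The canonical line.** -/
theorem exists_canonical : ∃ P₀ : (E⁄Qb).Point, P₀ ≠ 0 ∧ p • P₀ = 0 ∧
    ∀ P : (E⁄Qb).Point, P ≠ 0 → p • P = 0 →
      ((∃ k : ℤ, P = k • P₀) ↔ ¬ NonCan E A p P) ∧
      ((∃ k : ℤ, P = k • P₀) ↔
        A.valuation (jV (E⁄Qb) P p) = A.valuation (jE Qb E) ^ p) := by
  letI : Algebra Qb ℂ := (IsAlgClosed.lift : Qb →ₐ[ℚ] ℂ).toAlgebra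
  obtain ⟨Φ, hΦ⟩ := exists_PhiZ p
  have hp := hpF.out
  have hs := spec_shape hΦ E h.hΔ h.hp3 A h.one_lt_vj
  obtain ⟨b, hb, hvb⟩ := hs.exists_big hp.two_le h.one_lt_vj
  obtain ⟨P₀, hP₀, hpP₀, rfl⟩ := (spec_root_iff hΦ E h.hΔ h.hp3 b).mp hb
  have hne : ∀ r : A.ValueGroup, r = A.valuation (jE Qb E) ^ p → r ^ p ≠ A.valuation (jE Qb E) := by
    rintro r rfl h1
    rw [← pow_mul] at h1
    have h2 : A.valuation (jE Qb E) < A.valuation (jE Qb E) ^ (p * p) := by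
      conv_lhs => rw [← pow_one (A.valuation (jE Qb E))]
      have := hp.two_le
      exact pow_lt_pow_right₀ h.one_lt_vj (by nlinarith)
    rw [h1] at h2
    exact lt_irrefl _ h2
  refine ⟨P₀, hP₀, hpP₀, fun P hP hpP => ?_⟩
  have hroot := (spec_root_iff hΦ E h.hΔ h.hp3 (jV (E⁄Qb) P p)).mpr ⟨P, hP, hpP, rfl⟩
  have hiff := h.jV_eq_iff hP₀ hpP₀ hP hpP
  have huniq : A.valuation (jV (E⁄Qb) P p) = A.valuation (jE Qb E) ^ p →
      jV (E⁄Qb) P₀ p = jV (E⁄Qb) P p := by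
    intro hv
    have hc := hs.card_big hp.two_le h.one_lt_vj
    obtain ⟨z, hz⟩ := Multiset.card_eq_one.mp hc
    have hm := (spec_monic hΦ (jE Qb E)).ne_zero
    have h1 : jV (E⁄Qb) P₀ p ∈ (spec Φ (jE Qb E)).roots.filter
        (fun y => A.valuation y = A.valuation (jE Qb E) ^ p) := by
      rw [Multiset.mem_filter, Polynomial.mem_roots hm]
      exact ⟨hb, hvb⟩
    have h2 : jV (E⁄Qb) P p ∈ (spec Φ (jE Qb E)).roots.filter
        (fun y => A.valuation y = A.valuation (jE Qb E) ^ p) := by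
      rw [Multiset.mem_filter, Polynomial.mem_roots hm]
      exact ⟨hroot, hv⟩
    rw [hz, Multiset.mem_singleton] at h1 h2
    rw [h1, h2]
  have key : (∃ k : ℤ, P = k • P₀) ↔
      A.valuation (jV (E⁄Qb) P p) = A.valuation (jE Qb E) ^ p := by
    rw [← hiff]
    exact ⟨fun h1 => by rw [← h1, hvb], huniq⟩
  refine ⟨?_, key⟩
  rw [key]
  constructor
  · intro h1 h2
    exact hne _ h1 h2.2.2
  · intro h1
    rcases hs.root_cases hp.two_le h.one_lt_vj hroot with h2 | h2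
    · exact h2
    · exact absurd ⟨hP, hpP, h2⟩ h1

/-- **The equation of `w`.** -/
theorem wP_spec {P : (E⁄Qb).Point} (hP : NonCan E A p P) :
    A.valuation (wP E p n P) = 1 ∧
      ∃ e ∈ A, wP E p n P ^ p = u * (1 + (p : Qb) ^ (n + 1) * e) := by
  letI : Algebra Qb ℂ := (IsAlgClosed.lift : Qb →ₐ[ℚ] ℂ).toAlgebra
  obtain ⟨Φ, hΦ⟩ := exists_PhiZ p
  have hroot := (spec_root_iff hΦ E h.hΔ h.hp3 (jV (E⁄Qb) P p)).mpr ⟨P, hP.1, hP.2.1, rfl⟩
  have h2 := h.v_w hP.2.2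
  refine ⟨h2, ?_⟩
  obtain ⟨uA, huA⟩ : ∃ uA : A, (uA : Qb) = u := ⟨⟨u, (A.valuation_le_one_iff u).mp h.hu.le⟩, rfl⟩
  obtain ⟨wA, hwA⟩ : ∃ wA : A, (wA : Qb) = ((p : Qb) ^ n * jV (E⁄Qb) P p)⁻¹ :=
    ⟨⟨_, (A.valuation_le_one_iff _).mp h2.le⟩, rfl⟩
  have hu : IsUnit uA := (A.valuation_eq_one_iff uA).mpr (by rw [huA]; exact h.hu)
  have hw : IsUnit wA := (A.valuation_eq_one_iff wA).mpr (by rw [hwA]; exact h2)
  have h3 := roots_near hΦ h.hp3 h.vp_lt h.hn hu (x := jE Qb E) (by rw [huA]; exact h.hj)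
  obtain ⟨e, he⟩ := (h3.1 wA _ hw (by rw [hwA]; exact h.mul_w hP.2.2) hroot).1
  refine ⟨e, e.2, ?_⟩
  have h4 := congrArg (Subtype.val) he
  push_cast at h4
  rw [hwA, huA] at h4
  exact h4

/-- **Separation of the lines**: the invariants `w` of distinct lines are distinct modulo `p`. -/
theorem wP_sep {P P' : (E⁄Qb).Point} (hP : NonCan E A p P) (hP' : NonCan E A p P') {δ : Qb}
    (hδ : δ ∈ A) (hd : wP E p n P' - wP E p n P = p * δ) : ∃ k : ℤ, P' = k • P := by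
  letI : Algebra Qb ℂ := (IsAlgClosed.lift : Qb →ₐ[ℚ] ℂ).toAlgebra
  obtain ⟨Φ, hΦ⟩ := exists_PhiZ p
  have hroot := (spec_root_iff hΦ E h.hΔ h.hp3 (jV (E⁄Qb) P p)).mpr ⟨P, hP.1, hP.2.1, rfl⟩
  have hroot' := (spec_root_iff hΦ E h.hΔ h.hp3 (jV (E⁄Qb) P' p)).mpr ⟨P', hP'.1, hP'.2.1, rfl⟩
  have h2 := h.v_w hP.2.2
  have h2' := h.v_w hP'.2.2
  obtain ⟨uA, huA⟩ : ∃ uA : A, (uA : Qb) = u := ⟨⟨u, (A.valuation_le_one_iff u).mp h.hu.le⟩, rfl⟩
  obtain ⟨wA, hwA⟩ : ∃ wA : A, (wA : Qb) = wP E p n P :=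
    ⟨⟨_, (A.valuation_le_one_iff _).mp h2.le⟩, rfl⟩
  obtain ⟨wA', hwA'⟩ : ∃ wA : A, (wA : Qb) = wP E p n P' :=
    ⟨⟨_, (A.valuation_le_one_iff _).mp h2'.le⟩, rfl⟩
  have hu : IsUnit uA := (A.valuation_eq_one_iff uA).mpr (by rw [huA]; exact h.hu)
  have hw : IsUnit wA := (A.valuation_eq_one_iff wA).mpr (by rw [hwA]; exact h2)
  have h3 := roots_near hΦ h.hp3 h.vp_lt h.hn hu (x := jE Qb E) (by rw [huA]; exact h.hj)
  have h4 := h3.2 wA wA' _ _ hw (by rw [hwA]; exact h.mul_w hP.2.2) hroot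
    (by rw [hwA']; exact h.mul_w hP'.2.2) hroot' ⟨⟨δ, hδ⟩, by
      apply Subtype.coe_injective
      push_cast
      rw [hwA, hwA', hd]⟩
  have h5 := congrArg (Subtype.val) h4
  rw [hwA, hwA', wP, wP, inv_inj] at h5
  have hpn : ((p : Qb) ^ n) ≠ 0 := pow_ne_zero _ (by exact_mod_cast hpF.out.ne_zero)
  have h6 := mul_left_cancel₀ hpn h5
  exact (h.jV_eq_iff hP.1 hP.2.1 hP'.1 hP'.2.1).mp h6.symm

end Setup

end Qbar

end Fermat.Agent.Peu
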