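import Mathlib

set_option autoImplicit false
set_option linter.style.haveILetI false
set_option linter.unusedSectionVars false

/-!
# Numerics for the roots of the modular polynomial near a multiplicative place
-/

namespace Fermat.Agent.Peu

open Polynomial

section Local

variable {R : Type*} [CommRing R] [IsDomain R] [IsLocalRing R] {p : ℕ} (hp : p.Prime)
  (hp3 : 3 ≤ p) (hpm : (p : R) ∈ IsLocalRing.maximalIdeal R) (hp0 : (p : R) ≠ 0)

include hp hp3 hpm in
theorem pow_add_sub_pow (w δ : R) : ∃ m ∈ IsLocalRing.maximalIdeal R,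
    (w + p * δ) ^ p - w ^ p = p * (p * δ) * (w ^ (p - 1) + m) := by
  obtain ⟨a, rfl⟩ : ∃ a, p = a + 2 := ⟨p - 2, by omega⟩
  have ha : a ≠ 0 := by omega
  obtain ⟨d, hd⟩ : ∃ d, d = ((a + 2 : ℕ) : R) * δ := ⟨_, rfl⟩
  rw [← hd]
  obtain ⟨T, hT⟩ : ∃ T, (w + d) ^ (a + 2) = w ^ (a + 2) + d ^ (a + 2) +
      ((a + 2 : ℕ) : R) * w * d * (w ^ a + d * T) := by
    rw [add_pow_prime_eq hp w d]
    have h1 : Finset.Ioo 0 (a + 2) = insert (a + 1) (Finset.Ioo 0 (a + 1)) := by
      ext k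
      simp only [Finset.mem_Ioo, Finset.mem_insert]
      omega
    rw [h1, Finset.sum_insert (by simp)]
    have h2 : d ∣ ∑ k ∈ Finset.Ioo 0 (a + 1), w ^ (k - 1) * d ^ (a + 2 - k - 1) *
        (((a + 2).choose k / (a + 2) : ℕ) : R) := by
      refine Finset.dvd_sum fun k hk => ?_
      rw [Finset.mem_Ioo] at hk
      exact ((dvd_pow_self d (by omega)).mul_left _).mul_right _
    obtain ⟨T, hT⟩ := h2
    refine ⟨T, ?_⟩
    rw [hT]
    have h3 : (a + 2).choose (a + 1) = a + 2 := by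
      rw [Nat.choose_succ_self_right]
    have h4 : a + 1 - 1 = a := by omega
    have h5 : a + 2 - (a + 1) - 1 = 0 := by omega
    rw [h3, h4, h5, Nat.div_self (by omega)]
    simp
  obtain ⟨b, hb⟩ : ∃ b, d ^ (a + 1) = ((a + 2 : ℕ) : R) * (((a + 2 : ℕ) : R) * b) := by
    obtain ⟨c, rfl⟩ : ∃ c, a = c + 1 := ⟨a - 1, by omega⟩
    refine ⟨δ * δ * d ^ c, ?_⟩
    linear_combination (d ^ c) * (d + ((c + 1 + 2 : ℕ) : R) * δ) * hd
  refine ⟨((a + 2 : ℕ) : R) * b + w * d * T, ?_, ?_⟩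
  · refine Ideal.add_mem _ (Ideal.mul_mem_right _ _ hpm) ?_
    rw [hd]
    have : w * (((a + 2 : ℕ) : R) * δ) * T = ((a + 2 : ℕ) : R) * (w * δ * T) := by ring
    rw [this]
    exact Ideal.mul_mem_right _ _ hpm
  · have h6 : a + 2 - 1 = a + 1 := by omega
    rw [hT, h6, pow_succ d (a + 1), hb]
    ring

include hp hp3 hpm hp0 in
/-- **Uniqueness of the roots in a residue class modulo `p`.** -/
theorem eq_of_root {n : ℕ} (hn : 1 ≤ n) {u : R} {E : R[X]} {w w' : R} (hw : IsUnit w)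
    (h : w ^ (p + 1) - u * w + (p : R) ^ (n + 1) * E.eval w = 0)
    (h' : w' ^ (p + 1) - u * w' + (p : R) ^ (n + 1) * E.eval w' = 0)
    (hd : (p : R) ∣ w' - w) : w' = w := by
  obtain ⟨δ, hδ⟩ := hd
  obtain ⟨m, hm, hpow⟩ := pow_add_sub_pow hp hp3 hpm w δ
  have hw' : w' = w + p * δ := by rw [← hδ]; ring
  rw [← hw'] at hpow
  obtain ⟨g, hg⟩ := Polynomial.sub_dvd_eval_sub w' w E
  obtain ⟨a, rfl⟩ : ∃ a, p = a + 1 := ⟨p - 1, by omega⟩
  obtain ⟨b, rfl⟩ : ∃ b, n = b + 1 := ⟨n - 1, by omega⟩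
  have ha : a + 1 - 1 = a := by omega
  rw [ha] at hpow
  have hw'u : IsUnit w' := by
    rw [hw']
    by_contra hcon
    have h1 : w ∈ IsLocalRing.maximalIdeal R := by
      have h2 : w = (w + ((a + 1 : ℕ) : R) * δ) - ((a + 1 : ℕ) : R) * δ := by ring
      rw [h2]
      exact Ideal.sub_mem _ hcon (Ideal.mul_mem_right _ _ hpm)
    exact h1 hw
  have hunit : IsUnit (w * w' * (w ^ a + m) + ((a + 1 : ℕ) : R) *
      (((a + 1 : ℕ) : R) ^ b * (g * w - E.eval w))) := by
    by_contra hcon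
    have h1 : w * w' * (w ^ a + m) ∈ IsLocalRing.maximalIdeal R := by
      have h2 : w * w' * (w ^ a + m) = (w * w' * (w ^ a + m) + ((a + 1 : ℕ) : R) *
        (((a + 1 : ℕ) : R) ^ b * (g * w - E.eval w))) - ((a + 1 : ℕ) : R) *
        (((a + 1 : ℕ) : R) ^ b * (g * w - E.eval w)) := by ring
      rw [h2]
      exact Ideal.sub_mem _ hcon (Ideal.mul_mem_right _ _ hpm)
    have h3 : w ^ a + m ∈ IsLocalRing.maximalIdeal R := by
      rcases (IsLocalRing.maximalIdeal.isMaximal R).isPrime.mem_or_mem h1 with h4 | h4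
      · exact absurd (hw.mul hw'u) h4
      · exact h4
    have h5 : w ^ a ∈ IsLocalRing.maximalIdeal R := by
      have h6 : w ^ a = (w ^ a + m) - m := by ring
      rw [h6]
      exact Ideal.sub_mem _ h3 hm
    exact h5 (hw.pow a)
  have hzero : ((a + 1 : ℕ) : R) * (w' - w) * (w * w' * (w ^ a + m) + ((a + 1 : ℕ) : R) *
      (((a + 1 : ℕ) : R) ^ b * (g * w - E.eval w))) = 0 := by
    linear_combination w * h' - w * h - w * w' * hpow - (w' - w) * h -
      w * ((a + 1 : ℕ) : R) ^ (b + 2) * hg + w * w' * ((a + 1 : ℕ) : R) * (w ^ a + m) * hδ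
  rcases mul_eq_zero.mp hzero with h1 | h1
  · rcases mul_eq_zero.mp h1 with h2 | h2
    · exact absurd h2 hp0
    · exact sub_eq_zero.mp h2
  · rw [h1] at hunit
    exact absurd hunit not_isUnit_zero

/-- The roots which are units are `p`-th roots of `u (1 + p ^ (n + 1) e)`. -/
theorem exists_pow_eq {n : ℕ} {u : R} (hu : IsUnit u) {E : R[X]} {w : R} (hw : IsUnit w)
    (h : w ^ (p + 1) - u * w + (p : R) ^ (n + 1) * E.eval w = 0) :
    ∃ e : R, w ^ p = u * (1 + (p : R) ^ (n + 1) * e) := by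
  obtain ⟨u', hu'⟩ := hu.exists_right_inv
  obtain ⟨w', hw'⟩ := hw.exists_right_inv
  refine ⟨-(u' * w' * E.eval w), ?_⟩
  linear_combination w' * h - (w ^ p - u) * hw' + (p : R) ^ (n + 1) * E.eval w * w' * hu'

end Local

section Alg

variable {K : Type*} [Field K] {p : ℕ}

theorem derivative_eval_mul (f : K[X]) {N : ℕ} (hN : f.natDegree < N) (y : K) :
    f.derivative.eval y * y = ∑ k ∈ Finset.range N, (k : K) * f.coeff k * y ^ k := by
  conv_lhs => rw [f.as_sum_range' N hN]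
  rw [Polynomial.derivative_sum, Polynomial.eval_finsetSum, Finset.sum_mul]
  refine Finset.sum_congr rfl fun k _ => ?_
  rw [Polynomial.derivative_monomial, Polynomial.eval_monomial]
  cases k with
  | zero => simp
  | succ k =>
    rw [Nat.add_sub_cancel, pow_succ]
    ring

/-- The main identity. -/
theorem ident (hp : p ≠ 0) {n : ℕ} {c d : ℕ → ℕ → ℤ}
    (hcd : ∀ k i, k ≤ p + 1 → i ≤ p + 1 →
      (c k i - (if k = 0 ∧ i = p + 1 then 1 else 0) + (if k = p ∧ i = p then 1 else 0)) *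
        (p : ℤ) ^ (p * n * (p + 1 - i)) = (p : ℤ) ^ (n * k + n + 1) * d k i)
    (a : ℕ → K) {x y u w : K} (hx : x * ((p : K) ^ (p * n) * u) = 1)
    (hy : y * ((p : K) ^ n * w) = 1) :
    (∑ k ∈ Finset.range (p + 2), ∑ i ∈ Finset.range (p + 2), a k * (c k i : K) * x ^ i * y ^ k) *
      (((p : K) ^ (p * n) * u) ^ (p + 1) * ((p : K) ^ n * w) ^ (p + 1)) =
    (p : K) ^ (n * (p + 1)) * (a 0 * w ^ (p + 1) - a p * u * w + (p : K) ^ (n + 1) *
      ∑ k ∈ Finset.range (p + 2), ∑ i ∈ Finset.range (p + 2),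
        a k * (d k i : K) * u ^ (p + 1 - i) * w ^ (p + 1 - k)) := by
  obtain ⟨s, hs⟩ : ∃ s, s = (p : K) ^ (p * n) * u := ⟨_, rfl⟩
  obtain ⟨t, ht⟩ : ∃ t, t = (p : K) ^ n * w := ⟨_, rfl⟩
  rw [← hs] at hx
  rw [← ht] at hy
  rw [← hs, ← ht]
  have h1 : ∀ i, i ≤ p + 1 → x ^ i * s ^ (p + 1) = s ^ (p + 1 - i) := by
    intro i hi
    have h2 : s ^ (p + 1) = s ^ i * s ^ (p + 1 - i) := by rw [← pow_add]; congr 1; omega
    rw [h2, ← mul_assoc, ← mul_pow, hx, one_pow, one_mul]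
  have h2 : ∀ i, i ≤ p + 1 → y ^ i * t ^ (p + 1) = t ^ (p + 1 - i) := by
    intro i hi
    have h2 : t ^ (p + 1) = t ^ i * t ^ (p + 1 - i) := by rw [← pow_add]; congr 1; omega
    rw [h2, ← mul_assoc, ← mul_pow, hy, one_pow, one_mul]
  have h3 : ∀ k i, k ≤ p + 1 → i ≤ p + 1 →
      a k * (c k i : K) * x ^ i * y ^ k * (s ^ (p + 1) * t ^ (p + 1)) =
      (if k = 0 ∧ i = p + 1 then a 0 * t ^ (p + 1) else 0) -
      (if k = p ∧ i = p then a p * s * t else 0) +
      (p : K) ^ (n * (p + 1)) * ((p : K) ^ (n + 1) *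
        (a k * (d k i : K) * u ^ (p + 1 - i) * w ^ (p + 1 - k))) := by
    intro k i hk hi
    have h4 : a k * (c k i : K) * x ^ i * y ^ k * (s ^ (p + 1) * t ^ (p + 1)) =
        a k * (c k i : K) * s ^ (p + 1 - i) * t ^ (p + 1 - k) := by
      rw [← h1 i hi, ← h2 k hk]
      ring
    have h5 := congrArg (Int.cast : ℤ → K) (hcd k i hk hi)
    push_cast at h5
    have h6 : (p : K) ^ (n * k + n + 1) * (p : K) ^ (n * (p + 1 - k)) =
        (p : K) ^ (n * (p + 1)) * (p : K) ^ (n + 1) := by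
      rw [← pow_add, ← pow_add]
      congr 1
      obtain ⟨b, hb⟩ : ∃ b, p + 1 = k + b := ⟨p + 1 - k, by omega⟩
      rw [hb, Nat.add_sub_cancel_left]
      ring
    have h7 : s ^ (p + 1 - i) = (p : K) ^ (p * n * (p + 1 - i)) * u ^ (p + 1 - i) := by
      rw [hs, mul_pow, ← pow_mul]
    have h8 : t ^ (p + 1 - k) = (p : K) ^ (n * (p + 1 - k)) * w ^ (p + 1 - k) := by
      rw [ht, mul_pow, ← pow_mul]
    have h9 : a k * ((c k i : K) - (if k = 0 ∧ i = p + 1 then 1 else 0) +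
        (if k = p ∧ i = p then 1 else 0)) * s ^ (p + 1 - i) * t ^ (p + 1 - k) =
        (p : K) ^ (n * (p + 1)) * ((p : K) ^ (n + 1) *
        (a k * (d k i : K) * u ^ (p + 1 - i) * w ^ (p + 1 - k))) := by
      rw [h7, h8]
      linear_combination (a k * u ^ (p + 1 - i) * (p : K) ^ (n * (p + 1 - k)) * w ^ (p + 1 - k)) *
        h5 + (d k i : K) * a k * u ^ (p + 1 - i) * w ^ (p + 1 - k) * h6
    rw [h4, ← h9]
    have e1 : (if k = 0 ∧ i = p + 1 then a 0 * t ^ (p + 1) else 0) =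
        a k * (if k = 0 ∧ i = p + 1 then 1 else 0) * s ^ (p + 1 - i) * t ^ (p + 1 - k) := by
      by_cases h : k = 0 ∧ i = p + 1
      · rw [if_pos h, if_pos h, h.1, h.2]
        simp
      · rw [if_neg h, if_neg h]
        ring
    have e2 : (if k = p ∧ i = p then a p * s * t else 0) =
        a k * (if k = p ∧ i = p then 1 else 0) * s ^ (p + 1 - i) * t ^ (p + 1 - k) := by
      by_cases h : k = p ∧ i = p
      · rw [if_pos h, if_pos h, h.1, h.2]
        simp
      · rw [if_neg h, if_neg h]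
        ring
    rw [e1, e2]
    ring
  rw [Finset.sum_mul]
  simp only [Finset.sum_mul]
  rw [Finset.sum_congr rfl fun k hk => Finset.sum_congr rfl fun i hi =>
    h3 k i (by rw [Finset.mem_range] at hk; omega) (by rw [Finset.mem_range] at hi; omega)]
  simp only [Finset.sum_add_distrib, Finset.sum_sub_distrib, ← Finset.mul_sum]
  have e1 : ∑ k ∈ Finset.range (p + 2), ∑ i ∈ Finset.range (p + 2),
      (if k = 0 ∧ i = p + 1 then a 0 * t ^ (p + 1) else 0) = a 0 * t ^ (p + 1) := by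
    rw [Finset.sum_eq_single 0]
    · rw [Finset.sum_eq_single (p + 1)]
      · simp
      · intro i _ hi
        rw [if_neg (by tauto)]
      · intro h
        exact absurd (Finset.mem_range.mpr (by omega)) h
    · intro k _ hk
      refine Finset.sum_eq_zero fun i _ => ?_
      rw [if_neg (by tauto)]
    · intro h
      exact absurd (Finset.mem_range.mpr (by omega)) h
  have e2 : ∑ k ∈ Finset.range (p + 2), ∑ i ∈ Finset.range (p + 2),
      (if k = p ∧ i = p then a p * s * t else 0) = a p * s * t := by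
    rw [Finset.sum_eq_single p]
    · rw [Finset.sum_eq_single p]
      · simp
      · intro i _ hi
        rw [if_neg (by tauto)]
      · intro h
        exact absurd (Finset.mem_range.mpr (by omega)) h
    · intro k _ hk
      refine Finset.sum_eq_zero fun i _ => ?_
      rw [if_neg (by tauto)]
    · intro h
      exact absurd (Finset.mem_range.mpr (by omega)) h
  rw [e1, e2]
  have h4 : t ^ (p + 1) = (p : K) ^ (n * (p + 1)) * w ^ (p + 1) := by
    rw [ht, mul_pow, ← pow_mul]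
  have h5 : s * t = (p : K) ^ (n * (p + 1)) * (u * w) := by
    rw [hs, ht]
    have : (p : K) ^ (n * (p + 1)) = (p : K) ^ (p * n) * (p : K) ^ n := by
      rw [← pow_add]
      congr 1
      ring
    rw [this]
    ring
  rw [h4]
  linear_combination - a p * h5

end Alg

end Fermat.Agent.Peu
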