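import Fermat.Agent.Pts.Ramified
import Fermat.Agent.Peu.Kron

set_option autoImplicit false
set_option linter.style.haveILetI false
set_option linter.unusedSectionVars false

/-!
# The modular polynomial over `ℤ`
-/

namespace Fermat.Agent.Peu

open Function ModularCurve Polynomial UpperHalfPlane
open Fermat.Agent.ModFn Fermat.Agent.Pts

local notation "Qb" => AlgebraicClosure ℚ

/-- The ring of algebraic integers. -/
local notation "Zb" => integralClosure ℤ (AlgebraicClosure ℚ)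

variable (p : ℕ) [hpF : Fact p.Prime]

/-- Galois conjugation on the ring of algebraic integers. -/
noncomputable def galO (σ : Qb ≃ₐ[ℚ] Qb) : Zb →+* Zb :=
  RingHom.codRestrict ((σ : Qb →+* Qb).comp (integralClosure ℤ Qb).val.toRingHom)
    (integralClosure ℤ Qb) (fun x => by
      have h1 : IsIntegral ℤ (x : Qb) := x.2
      exact h1.map (σ : Qb →+* Qb).toIntAlgHom)

theorem coe_galO (σ : Qb ≃ₐ[ℚ] Qb) (x : Zb) : ((galO σ x : Zb) : Qb) = σ (x : Qb) := rfl

theorem exists_int_of_fixed {c : Zb} (h : ∀ σ : Qb ≃ₐ[ℚ] Qb, galO σ c = c) :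
    ∃ n : ℤ, (n : Zb) = c := by
  have h1 : (c : Qb) ∈ Set.range (algebraMap ℚ Qb) := by
    rw [InfiniteGalois.mem_range_algebraMap_iff_fixed]
    intro σ
    rw [← coe_galO, h σ]
  obtain ⟨r, hr⟩ := h1
  have h2 : IsIntegral ℤ (c : Qb) := c.2
  rw [← hr, isIntegral_algebraMap_iff (algebraMap ℚ Qb).injective] at h2
  obtain ⟨n, hn⟩ := IsIntegrallyClosed.isIntegral_iff.mp h2
  refine ⟨n, Subtype.ext ?_⟩
  rw [← hr, ← hn]
  simp

theorem isUnit_int_of_isUnit {n : ℤ} (h : IsUnit (n : Zb)) : IsUnit n := by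
  obtain ⟨u, hu⟩ := h
  have h11 : ((u : Zb) : Qb) * (((u⁻¹ : (Zb)ˣ) : Zb) : Qb) = 1 := by
    have h12 := congrArg (Subtype.val) (Units.mul_inv u)
    exact h12
  rw [hu] at h11
  have h13 : ((n : Zb) : Qb) = (n : Qb) := by simp
  rw [h13] at h11
  have h9 : IsIntegral ℤ (((n : ℚ)⁻¹ : ℚ)) := by
    rw [← isIntegral_algebraMap_iff (algebraMap ℚ Qb).injective]
    have h10 : algebraMap ℚ Qb (n : ℚ)⁻¹ = ((u⁻¹ : (Zb)ˣ) : Zb) := by
      rw [map_inv₀]
      apply inv_eq_of_mul_eq_one_right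
      rw [← h11]
      simp
    rw [h10]
    exact ((u⁻¹ : (Zb)ˣ) : Zb).2
  obtain ⟨m, hm⟩ := IsIntegrallyClosed.isIntegral_iff.mp h9
  have hn0 : (n : ℚ) ≠ 0 := by
    intro h0
    have h1 : n = 0 := by exact_mod_cast h0
    rw [h1] at h11
    simp at h11
  have h12 : (n : ℚ) * (m : ℚ) = 1 := by
    have : (m : ℚ) = (n : ℚ)⁻¹ := by simpa using hm
    rw [this, mul_inv_cancel₀ hn0]
  have h13 : n * m = 1 := by exact_mod_cast h12
  exact IsUnit.of_mul_eq_one m h13

theorem coeff_Kr (k j : ℕ) : ((Kr p ℤ).coeff k).coeff j =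
    (if k = p + 1 ∧ j = 0 then 1 else 0) - (if k = 1 ∧ j = 1 then 1 else 0) -
    (if k = p ∧ j = p then 1 else 0) + (if k = 0 ∧ j = p + 1 then 1 else 0) := by
  have h1 : Kr p ℤ = X ^ (p + 1) - C X * X - C (X ^ p) * X ^ p + C (X ^ (p + 1)) := by
    rw [Kr, pow_succ X p, pow_succ X p, C_mul]
    ring
  rw [h1]
  simp only [Polynomial.coeff_add, Polynomial.coeff_sub, Polynomial.coeff_X_pow,
    Polynomial.coeff_C_mul, Polynomial.coeff_X, Polynomial.coeff_C, mul_ite, mul_one, mul_zero]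
  have e1 : (if k = p + 1 then (1 : ℤ[X]) else 0).coeff j = if k = p + 1 ∧ j = 0 then 1 else 0 := by
    by_cases h : k = p + 1
    · simp [h, Polynomial.coeff_one]
    · simp [h]
  have e2 : (if 1 = k then (X : ℤ[X]) else 0).coeff j = if k = 1 ∧ j = 1 then 1 else 0 := by
    by_cases h : 1 = k
    · simp [← h, Polynomial.coeff_X, eq_comm]
    · simp [h, Ne.symm h]
  have e3 : (if k = p then (X ^ p : ℤ[X]) else 0).coeff j = if k = p ∧ j = p then 1 else 0 := by
    by_cases h : k = p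
    · simp [h, Polynomial.coeff_X_pow]
    · simp [h]
  have e4 : (if k = 0 then (X ^ (p + 1) : ℤ[X]) else 0).coeff j =
      if k = 0 ∧ j = p + 1 then 1 else 0 := by
    by_cases h : k = 0
    · simp [h, Polynomial.coeff_X_pow]
    · simp [h]
  rw [e1, e2, e3, e4]

/-- The properties of the integral modular polynomial. -/
structure IsPhiZ (Φ : ℤ[X][X]) : Prop where
  monic : Φ.Monic
  natDegree : Φ.natDegree = p + 1
  deg_le : ∀ k, 1 ≤ k → k ≤ p → (Φ.coeff k).natDegree ≤ p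
  deg_zero : (Φ.coeff 0).natDegree ≤ p + 1
  kron : ∀ k i, (p : ℤ) ∣ (Φ.coeff k).coeff i - ((Kr p ℤ).coeff k).coeff i
  coeff_p : (Φ.coeff p).coeff p = -1
  coeff_zero : 3 ≤ p → (Φ.coeff 0).coeff (p + 1) = 1
  map_eq : ∀ τ, Φ.map (eval₂RingHom (Int.castRingHom ℂ) (jH τ)) = Fτ p τ

theorem exists_PhiZ : ∃ Φ : ℤ[X][X], IsPhiZ p Φ := by
  classical
  letI : Algebra Qb ℂ := (IsAlgClosed.lift : Qb →ₐ[ℚ] ℂ).toAlgebra
  -- the root of unity
  obtain ⟨z, hz⟩ := hasRoots_of_isAlgClosed Qb p p dvd_rfl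
  have hzprim : IsPrimitiveRoot z p := by
    have h1 : IsPrimitiveRoot (algebraMap Qb ℂ z) p := by
      rw [hz]
      exact Complex.isPrimitiveRoot_exp p (NeZero.ne p)
    exact h1.of_map_of_injective (algebraMap Qb ℂ).injective
  have hzp : z ^ p = 1 := hzprim.pow_eq_one
  have hzint : z ∈ integralClosure ℤ Qb := by
    refine IsIntegral.of_pow hpF.out.pos ?_
    rw [hzp]
    exact isIntegral_one
  have hp1 : p - 1 + 1 = p := Nat.sub_add_cancel hpF.out.one_lt.le
  obtain ⟨ζ, hζ⟩ : ∃ ζ : (Zb)ˣ, ((ζ : Zb) : Qb) = z := by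
    refine ⟨⟨⟨z, hzint⟩, ⟨z, hzint⟩ ^ (p - 1), ?_, ?_⟩, rfl⟩
    · rw [← pow_succ', hp1]
      apply Subtype.ext
      simpa using hzp
    · rw [← pow_succ, hp1]
      apply Subtype.ext
      simpa using hzp
  have hζp : ζ ^ p = 1 := by
    apply Units.ext
    apply Subtype.ext
    simp [hζ, hzp]
  obtain ⟨i, hi⟩ : ∃ i : Zb →+* ℂ,
    i = (algebraMap Qb ℂ).comp (integralClosure ℤ Qb).val.toRingHom := ⟨_, rfl⟩
  have hiinj : Function.Injective i := by
    rw [hi]
    exact (algebraMap Qb ℂ).injective.comp Subtype.val_injective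
  have hζ' : Units.map i.toMonoidHom ζ = zetaU p := by
    apply Units.ext
    change i ζ = _
    rw [hi]
    change algebraMap Qb ℂ ((ζ : Zb) : Qb) = _
    rw [hζ, hz]
    rfl
  obtain ⟨Φ, h1, h2, h3, h4, h5, h6, h7, h8⟩ := exists_Phi p i ζ hiinj hζ'
  change Φ.map (evp p Zb) = _ at h8
  -- Galois invariance
  have hgal : ∀ σ : Qb ≃ₐ[ℚ] Qb, Φ.map (mapRingHom (galO σ)) = Φ := by
    intro σ
    apply Polynomial.map_injective (evp p Zb) (evp_injective p)
    rw [Polynomial.map_map, ← coeffMap_comp_evp, ← Polynomial.map_map, h8, FO_map]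
    obtain ⟨a, ha, ha'⟩ : ∃ a < p, z ^ a = σ z :=
      hzprim.eq_pow_of_pow_eq_one (by rw [← map_pow, hzp, map_one])
    have h9 : Units.map (galO σ).toMonoidHom ζ = ζ ^ a := by
      apply Units.ext
      apply Subtype.ext
      change σ ((ζ : Zb) : Qb) = _
      rw [hζ, ← ha', Units.val_pow_eq_pow_val]
      simp [hζ]
    rw [h9]
    apply FO_pow p hζp
    intro h0
    rw [ZMod.natCast_eq_zero_iff] at h0
    have h10 : a = 0 := Nat.eq_zero_of_dvd_of_lt h0 ha
    rw [h10, pow_zero] at ha'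
    have h11 : z = 1 := by
      apply σ.injective
      rw [← ha', map_one]
    exact hzprim.ne_one hpF.out.one_lt h11
  have hcoef : ∀ k j, ∃ n : ℤ, (n : Zb) = (Φ.coeff k).coeff j := by
    intro k j
    apply exists_int_of_fixed
    intro σ
    have h9 := hgal σ
    conv_rhs => rw [← h9]
    rw [Polynomial.coeff_map, coe_mapRingHom, Polynomial.coeff_map]
  obtain ⟨g, hg⟩ : ∃ g : ℤ →+* Zb, g = Int.castRingHom Zb := ⟨_, rfl⟩
  have hginj : Injective g := by
    rw [hg]
    exact (Int.castRingHom Zb).injective_int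
  have hlift : Φ ∈ lifts (mapRingHom g) := by
    rw [lifts_iff_coeff_lifts]
    intro k
    have h9 : Φ.coeff k ∈ lifts g := by
      rw [lifts_iff_coeff_lifts]
      intro j
      obtain ⟨n, hn⟩ := hcoef k j
      exact ⟨n, by rw [hg]; exact hn⟩
    obtain ⟨q, hq⟩ := (mem_lifts _).mp h9
    exact ⟨q, hq⟩
  obtain ⟨Ψ, hΨ⟩ := (mem_lifts _).mp hlift
  have hinj2 : Injective (mapRingHom g) := Polynomial.map_injective g hginj
  have hc : ∀ k j, g ((Ψ.coeff k).coeff j) = (Φ.coeff k).coeff j := by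
    intro k j
    rw [← hΨ, Polynomial.coeff_map, coe_mapRingHom, Polynomial.coeff_map]
  have hd : ∀ k, (Ψ.coeff k).natDegree = (Φ.coeff k).natDegree := by
    intro k
    rw [← hΨ, Polynomial.coeff_map, coe_mapRingHom, natDegree_map_eq_of_injective hginj]
  -- Kronecker congruence
  obtain ⟨M, hM, hpM⟩ : ∃ M : Ideal Zb, M.IsMaximal ∧ (p : Zb) ∈ M := by
    have hnu : ¬ IsUnit (p : Zb) := by
      intro hu
      have h9 : IsUnit (p : ℤ) := isUnit_int_of_isUnit (by simpa using hu)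
      rw [Int.isUnit_iff] at h9
      have h10 := hpF.out.one_lt
      omega
    obtain ⟨M, hM, hle⟩ := Ideal.exists_le_maximal (Ideal.span {(p : Zb)})
      (by rwa [Ne, Ideal.span_singleton_eq_top])
    exact ⟨M, hM, hle (Ideal.mem_span_singleton_self _)⟩
  letI : Field (Zb ⧸ M) := Ideal.Quotient.field M
  haveI : CharP (Zb ⧸ M) p := by
    have h9 : ((p : ℕ) : Zb ⧸ M) = 0 := by
      have := Ideal.Quotient.eq_zero_iff_mem.mpr hpM
      simpa using this
    have h10 := CharP.ringChar_of_prime_eq_zero hpF.out h9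
    rw [← h10]
    infer_instance
  obtain ⟨f, hf⟩ : ∃ f : Zb →+* (Zb ⧸ M), f = Ideal.Quotient.mk M := ⟨_, rfl⟩
  have hζ1 : Units.map f.toMonoidHom ζ = 1 := by
    apply Units.ext
    have h9 : (f ζ) ^ p = 1 := by
      rw [← map_pow, ← Units.val_pow_eq_pow_val, hζp, Units.val_one, map_one]
    have h10 : (f ζ - 1) ^ p = 0 := by
      rw [sub_pow_char, h9, one_pow, sub_self]
    exact sub_eq_zero.1 (pow_eq_zero_iff hpF.out.ne_zero |>.1 h10)
  have hKr : Φ.map (mapRingHom f) = Kr p (Zb ⧸ M) := by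
    apply Polynomial.map_injective (evp p (Zb ⧸ M)) (evp_injective p)
    rw [Polynomial.map_map, ← coeffMap_comp_evp, ← Polynomial.map_map, h8, FO_map, hζ1,
      FO_one_char]
  have hKr2 : Ψ.map (mapRingHom (Int.castRingHom (Zb ⧸ M))) =
      (Kr p ℤ).map (mapRingHom (Int.castRingHom (Zb ⧸ M))) := by
    rw [Kr_map, ← hKr, ← hΨ, Polynomial.map_map]
    congr 1
    rw [mapRingHom_comp]
    congr 1
    exact RingHom.ext_int _ _
  have hkron : ∀ k i, (p : ℤ) ∣ (Ψ.coeff k).coeff i - ((Kr p ℤ).coeff k).coeff i := by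
    intro k j
    have h9 := congrArg (fun P => (P.coeff k).coeff j) hKr2
    simp only [Polynomial.coeff_map, coe_mapRingHom, eq_intCast] at h9
    rw [← CharP.intCast_eq_zero_iff (Zb ⧸ M) p, Int.cast_sub, h9, sub_self]
  refine ⟨Ψ, ?_, ?_, ?_, ?_, hkron, ?_, ?_, ?_⟩
  · exact monic_of_injective hinj2 (by rw [hΨ]; exact h1)
  · rw [← h2, ← hΨ, natDegree_map_eq_of_injective hinj2]
  · intro k hk1 hk2
    rw [hd]
    exact h3 k hk1 hk2
  · rw [hd]
    exact h5
  · apply hginj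
    rw [hc, h4, map_neg, map_one]
  · intro hp3
    have h9 : IsUnit ((Ψ.coeff 0).coeff (p + 1)) := by
      apply isUnit_int_of_isUnit
      have h10 := hc 0 (p + 1)
      rw [hg, eq_intCast] at h10
      rw [h10]
      exact h6
    have h10 := hkron 0 (p + 1)
    rw [coeff_Kr] at h10
    have h11 : (0 : ℕ) ≠ p + 1 := by omega
    have h12 : (0 : ℕ) ≠ p := by omega
    simp only [h11, h12, false_and, if_false, zero_ne_one, sub_zero, and_self, if_true,
      zero_add] at h10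
    rw [Int.isUnit_iff] at h9
    rcases h9 with h9 | h9
    · exact h9
    · exfalso
      rw [h9] at h10
      have h13 : (p : ℤ) ∣ 2 := by
        have h14 : (-1 - 1 : ℤ) = -2 := by norm_num
        rw [h14] at h10
        exact (dvd_neg (α := ℤ)).mp h10
      have h14 : p ∣ 2 := by exact_mod_cast h13
      have h15 := Nat.le_of_dvd (by norm_num) h14
      omega
  · intro τ
    rw [← h7 τ, ← hΨ, Polynomial.map_map]
    congr 1
    apply Polynomial.ringHom_ext
    · intro c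
      simp [hg]
    · simp

end Fermat.Agent.Peu
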