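import Fermat.Agent.Peu.PhiZ
import Fermat.Agent.Peu.Num

set_option autoImplicit false
set_option linter.style.haveILetI false
set_option linter.unusedSectionVars false

/-!
# The roots of the modular polynomial near a multiplicative place above `p`
-/

namespace Fermat.Agent.Peu

open Polynomial Fermat.Agent.Pts

variable {p : ℕ} [hpF : Fact p.Prime] {Φ : ℤ[X][X]} (hΦ : IsPhiZ p Φ) (hp3 : 3 ≤ p)

include hΦ hp3 in
theorem exists_d {n : ℕ} (hn : 1 ≤ n) : ∃ d : ℕ → ℕ → ℤ, ∀ k i, k ≤ p + 1 → i ≤ p + 1 →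
      ((Φ.coeff k).coeff i - (if k = 0 ∧ i = p + 1 then 1 else 0) +
        (if k = p ∧ i = p then 1 else 0)) *
        (p : ℤ) ^ (p * n * (p + 1 - i)) = (p : ℤ) ^ (n * k + n + 1) * d k i := by
  suffices h : ∀ k i, ∃ d : ℤ, k ≤ p + 1 → i ≤ p + 1 →
      ((Φ.coeff k).coeff i - (if k = 0 ∧ i = p + 1 then 1 else 0) +
        (if k = p ∧ i = p then 1 else 0)) *
        (p : ℤ) ^ (p * n * (p + 1 - i)) = (p : ℤ) ^ (n * k + n + 1) * d by
    choose d hd using h
    exact ⟨d, hd⟩
  intro k i
  by_cases hk : k ≤ p + 1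
  swap
  · exact ⟨0, fun h => absurd h hk⟩
  by_cases hi : i ≤ p + 1
  swap
  · exact ⟨0, fun _ h => absurd h hi⟩
  -- it suffices to divide
  suffices h : (p : ℤ) ^ (n * k + n + 1) ∣
      ((Φ.coeff k).coeff i - (if k = 0 ∧ i = p + 1 then 1 else 0) +
        (if k = p ∧ i = p then 1 else 0)) * (p : ℤ) ^ (p * n * (p + 1 - i)) by
    obtain ⟨d, hd⟩ := h
    exact ⟨d, fun _ _ => hd⟩
  have hlead : Φ.coeff (p + 1) = 1 := by
    have := hΦ.monic.coeff_natDegree
    rwa [hΦ.natDegree] at this
  -- the bound on the exponents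
  have hexp : ∀ j, 2 ≤ j → k ≤ p → n * k + n + 1 ≤ p * n * j := by
    intro j hj hkp
    have h1 : p * n * 2 ≤ p * n * j := Nat.mul_le_mul_left _ hj
    have h2 : n * k ≤ n * p := Nat.mul_le_mul_left _ hkp
    have h3 : n * 3 ≤ n * p := Nat.mul_le_mul_left _ hp3
    have h4 : p * n * 2 = n * p + n * p := by ring
    omega
  rcases Nat.lt_or_ge p k with hkp | hkp
  · -- k = p + 1
    have hk' : k = p + 1 := by omega
    subst hk'
    rw [hlead, Polynomial.coeff_one, if_neg (show ¬ (p + 1 = 0 ∧ i = p + 1) by omega),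
      if_neg (show ¬ (p + 1 = p ∧ i = p) by omega)]
    by_cases h0 : i = 0
    · subst h0
      apply Dvd.dvd.mul_left
      apply pow_dvd_pow
      have h1 : p * n * (p + 1 - 0) = n * (p + 1) * p := by
        rw [Nat.sub_zero]; ring
      have h2 : n * (p + 1) * 3 ≤ n * (p + 1) * p := Nat.mul_le_mul_left _ hp3
      have h3 : n * 4 ≤ n * (p + 1) := Nat.mul_le_mul_left _ (by omega)
      omega
    · rw [if_neg h0]
      simp
  · -- k ≤ p
    rcases Nat.lt_or_ge i p with hip | hip
    · apply Dvd.dvd.mul_left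
      apply pow_dvd_pow
      exact hexp _ (by omega) hkp
    · rcases Nat.eq_zero_or_pos k with hk0 | hk0
      · subst hk0
        rcases Nat.lt_or_ge p i with hip' | hip'
        · have hi' : i = p + 1 := by omega
          subst hi'
          rw [hΦ.coeff_zero hp3, if_pos ⟨rfl, rfl⟩, if_neg (by omega)]
          simp
        · have hi' : i = p := by omega
          subst hi'
          apply Dvd.dvd.mul_left
          apply pow_dvd_pow
          have h1 : i + 1 - i = 1 := by omega
          have h3 : n * 3 ≤ n * i := Nat.mul_le_mul_left _ hp3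
          have h4 : i * n * 1 = n * i := by ring
          rw [h1]
          omega
      · rcases Nat.lt_or_ge p i with hip' | hip'
        · have h0 : (Φ.coeff k).coeff i = 0 := by
            apply Polynomial.coeff_eq_zero_of_natDegree_lt
            exact (hΦ.deg_le k hk0 hkp).trans_lt hip'
          rw [h0, if_neg (by omega), if_neg (by omega)]
          simp
        · have hi' : i = p := by omega
          subst hi'
          rcases Nat.lt_or_ge k i with hki | hki
          · have h1 : (i : ℤ) ∣ (Φ.coeff k).coeff i := by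
              have h2 := hΦ.kron k i
              rw [coeff_Kr, if_neg (by omega), if_neg (by omega), if_neg (by omega),
                if_neg (by omega)] at h2
              simpa using h2
            have h3 : i + 1 - i = 1 := by omega
            rw [if_neg (by omega), if_neg (by omega), sub_zero, add_zero, h3]
            have h4 : (i : ℤ) ^ (n * k + n + 1) ∣ (i : ℤ) ^ (i * n * 1 + 1) := by
              apply pow_dvd_pow
              have h5 : n * (k + 1) ≤ n * i := Nat.mul_le_mul_left _ hki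
              have h6 : n * (k + 1) = n * k + n := by ring
              have h7 : i * n * 1 = n * i := by ring
              omega
            refine h4.trans ?_
            rw [pow_succ, mul_comm]
            exact mul_dvd_mul_right h1 _
          · have hk' : k = i := by omega
            subst hk'
            rw [hΦ.coeff_p, if_neg (by omega), if_pos ⟨rfl, rfl⟩]
            simp

section Field

variable {K : Type*} [Field K]

/-- The specialised modular polynomial. -/
noncomputable def spec (Φ : ℤ[X][X]) (x : K) : K[X] := Φ.map (eval₂RingHom (Int.castRingHom K) x)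

include hΦ in
theorem spec_coeff (x : K) {k : ℕ} (hk : k ≤ p + 1) : (spec Φ x).coeff k =
    ∑ i ∈ Finset.range (p + 2), ((Φ.coeff k).coeff i : K) * x ^ i := by
  rw [spec, Polynomial.coeff_map, coe_eval₂RingHom]
  rw [Polynomial.eval₂_eq_sum_range' _ (n := p + 2)]
  · rfl
  · rcases Nat.eq_zero_or_pos k with hk0 | hk0
    · subst hk0
      exact hΦ.deg_zero.trans_lt (by omega)
    · rcases Nat.lt_or_ge p k with hkp | hkp
      · have hk' : k = p + 1 := by omega
        have hlead : Φ.coeff (p + 1) = 1 := by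
          have := hΦ.monic.coeff_natDegree
          rwa [hΦ.natDegree] at this
        rw [hk', hlead, natDegree_one]
        omega
      · exact (hΦ.deg_le k hk0 hkp).trans_lt (by omega)

include hΦ in
theorem spec_monic (x : K) : (spec Φ x).Monic := hΦ.monic.map _

include hΦ in
theorem spec_natDegree (x : K) : (spec Φ x).natDegree = p + 1 := by
  rw [spec, hΦ.monic.natDegree_map, hΦ.natDegree]

include hΦ in
theorem spec_eval (x y : K) : (spec Φ x).eval y = ∑ k ∈ Finset.range (p + 2),
    ∑ i ∈ Finset.range (p + 2), (fun _ => (1 : K)) k * ((Φ.coeff k).coeff i : K) * x ^ i * y ^ k := by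
  rw [Polynomial.eval_eq_sum_range' (n := p + 2) (by rw [spec_natDegree hΦ]; omega)]
  refine Finset.sum_congr rfl fun k hk => ?_
  rw [Finset.mem_range] at hk
  rw [spec_coeff hΦ x (by omega), Finset.sum_mul]
  simp only [one_mul]

include hΦ in
theorem spec_derivative (x y : K) : (spec Φ x).derivative.eval y * y =
    ∑ k ∈ Finset.range (p + 2), ∑ i ∈ Finset.range (p + 2),
      (fun k : ℕ => (k : K)) k * ((Φ.coeff k).coeff i : K) * x ^ i * y ^ k := by
  rw [derivative_eval_mul _ (N := p + 2) (by rw [spec_natDegree hΦ]; omega)]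
  refine Finset.sum_congr rfl fun k hk => ?_
  rw [Finset.mem_range] at hk
  rw [spec_coeff hΦ x (by omega), Finset.mul_sum, Finset.sum_mul]
  simp only [mul_assoc]

end Field

section ValRing

variable {K : Type*} [Field K] [CharZero K] {A : ValuationSubring K}

/-- The correction term. -/
noncomputable def Epol (p : ℕ) (d : ℕ → ℕ → ℤ) (u : A) : A[X] :=
  ∑ k ∈ Finset.range (p + 2), ∑ i ∈ Finset.range (p + 2),
    C ((d k i : A) * u ^ (p + 1 - i)) * X ^ (p + 1 - k)

/-- The correction term for the derivative. -/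
noncomputable def Eder (p : ℕ) (d : ℕ → ℕ → ℤ) (u w : A) : A :=
  ∑ k ∈ Finset.range (p + 2), ∑ i ∈ Finset.range (p + 2),
    (k : A) * (d k i : A) * u ^ (p + 1 - i) * w ^ (p + 1 - k)

theorem Epol_eval (p : ℕ) (d : ℕ → ℕ → ℤ) (u w : A) : (((Epol p d u).eval w : A) : K) =
    ∑ k ∈ Finset.range (p + 2), ∑ i ∈ Finset.range (p + 2),
      (fun _ => (1 : K)) k * (d k i : K) * (u : K) ^ (p + 1 - i) * (w : K) ^ (p + 1 - k) := by
  rw [Epol]
  simp only [Polynomial.eval_finsetSum, Polynomial.eval_mul, Polynomial.eval_C,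
    Polynomial.eval_pow, Polynomial.eval_X, one_mul]
  push_cast
  rfl

theorem Eder_eval (p : ℕ) (d : ℕ → ℕ → ℤ) (u w : A) : (Eder p d u w : K) =
    ∑ k ∈ Finset.range (p + 2), ∑ i ∈ Finset.range (p + 2),
      (fun k : ℕ => (k : K)) k * (d k i : K) * (u : K) ^ (p + 1 - i) *
        (w : K) ^ (p + 1 - k) := by
  rw [Eder]
  push_cast
  rfl

include hΦ hp3 in
/-- **The equation for `w = 1 / (p ^ n J)`.** -/
theorem exists_equation {n : ℕ} (hn : 1 ≤ n) (u : A) {x : K}
    (hx : x * ((p : K) ^ (p * n) * u) = 1) : ∃ (E : A[X]) (E' : A → A), ∀ (w : A) (y : K),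
      y * ((p : K) ^ n * w) = 1 →
      ((spec Φ x).eval y = 0 ↔ w ^ (p + 1) - u * w + (p : A) ^ (n + 1) * E.eval w = 0) ∧
      ((spec Φ x).derivative.eval y = 0 → (p : A) * (u * w) = (p : A) ^ (n + 1) * E' w) := by
  obtain ⟨d, hd⟩ := exists_d hΦ hp3 hn
  refine ⟨Epol p d u, Eder p d u, ?_⟩
  intro w y hy
  have hpK : (p : K) ≠ 0 := by exact_mod_cast hpF.out.ne_zero
  have hs : ((p : K) ^ (p * n) * u) ≠ 0 := right_ne_zero_of_mul_eq_one hx
  have ht : ((p : K) ^ n * w) ≠ 0 := right_ne_zero_of_mul_eq_one hy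
  have hy0 : y ≠ 0 := left_ne_zero_of_mul_eq_one hy
  have hst : (((p : K) ^ (p * n) * u) ^ (p + 1) * ((p : K) ^ n * w) ^ (p + 1)) ≠ 0 :=
    mul_ne_zero (pow_ne_zero _ hs) (pow_ne_zero _ ht)
  have h1 := ident (K := K) hpF.out.ne_zero hd (fun _ => 1) hx hy
  have h2 := ident (K := K) hpF.out.ne_zero hd (fun k : ℕ => (k : K)) hx hy
  rw [← spec_eval hΦ, ← Epol_eval] at h1
  rw [← spec_derivative hΦ, ← Eder_eval] at h2
  constructor
  · rw [← Subtype.coe_inj]
    push_cast
    simp only [one_mul] at h1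
    rw [← mul_eq_zero_iff_right hst, h1, mul_eq_zero_iff_left (pow_ne_zero _ hpK)]
  · intro h0
    rw [h0, zero_mul, zero_mul] at h2
    have h3 := (mul_eq_zero.mp h2.symm).resolve_left (pow_ne_zero _ hpK)
    apply Subtype.coe_injective
    push_cast
    push_cast at h3
    linear_combination -h3

end ValRing

section Main

variable {K : Type*} [Field K] [CharZero K] {A : ValuationSubring K}

theorem natCast_mem_maximalIdeal (hA : A.valuation (p : K) < 1) :
    (p : A) ∈ IsLocalRing.maximalIdeal A := by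
  rw [IsLocalRing.mem_maximalIdeal, mem_nonunits_iff]
  intro hu
  have h1 := (A.valuation_eq_one_iff (p : A)).mp hu
  push_cast at h1
  exact hA.ne h1

theorem natCast_ne_zero : (p : A) ≠ 0 := by
  intro h
  have h1 := congrArg (Subtype.val) h
  push_cast at h1
  have h2 : (p : K) ≠ 0 := by exact_mod_cast hpF.out.ne_zero
  exact h2 h1

/-- **Local analysis of the roots of the modular polynomial at a multiplicative place over `p`,
`j⁻¹ = p ^ (p n) u`**: for two roots `y`, `y'` with `y⁻¹ = p ^ n w`, `y'⁻¹ = p ^ n w'`, `w`, `w'`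
units. -/
theorem roots_near (hΦ : IsPhiZ p Φ) (hp3 : 3 ≤ p) (hA : A.valuation (p : K) < 1) {n : ℕ}
    (hn : 1 ≤ n) {u : A} (hu : IsUnit u) {x : K} (hx : x * ((p : K) ^ (p * n) * u) = 1) :
    (∀ (w : A) (y : K), IsUnit w → y * ((p : K) ^ n * w) = 1 → (spec Φ x).eval y = 0 →
      (∃ e : A, w ^ p = u * (1 + (p : A) ^ (n + 1) * e)) ∧ (spec Φ x).derivative.eval y ≠ 0) ∧
    (∀ (w w' : A) (y y' : K), IsUnit w → y * ((p : K) ^ n * w) = 1 → (spec Φ x).eval y = 0 →
      y' * ((p : K) ^ n * w') = 1 → (spec Φ x).eval y' = 0 → (p : A) ∣ w' - w → w' = w) := by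
  have hpm := natCast_mem_maximalIdeal hA
  obtain ⟨E, E', hE⟩ := exists_equation hΦ hp3 hn u hx
  constructor
  · intro w y hw hy h0
    have h1 := ((hE w y hy).1).mp h0
    refine ⟨exists_pow_eq hu hw h1, fun h2 => ?_⟩
    have h3 := (hE w y hy).2 h2
    have h4 : (p : A) ^ (n + 1) * E' w = (p : A) * ((p : A) ^ n * E' w) := by ring
    rw [h4] at h3
    have h5 := mul_left_cancel₀ natCast_ne_zero h3
    have h6 : (p : A) ^ n * E' w ∈ IsLocalRing.maximalIdeal A :=
      Ideal.mul_mem_right _ _ (Ideal.pow_mem_of_mem _ hpm n (by omega))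
    rw [← h5] at h6
    exact h6 (hu.mul hw)
  · intro w w' y y' hw hy h0 hy' h0' hd
    exact eq_of_root hpF.out hp3 hpm natCast_ne_zero hn hw (((hE w y hy).1).mp h0)
      (((hE w' y' hy').1).mp h0') hd

end Main

end Fermat.Agent.Peu
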